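import Mathlib

/-!
# S14 / package D (helper32): Euler products over the nonzero ideals of a Dedekind domain

For a monoid hom `f : (Ideal R)⁰ →* 𝕜` with `∑ ‖f I‖ < ∞` and `‖f 𝔭‖ < 1` for all primes we
prove `∏_{𝔭 ∈ S} (1 - f 𝔭)⁻¹ → ∑' I, f I` along finite sets `S` of primes.
-/

namespace Fermat.Agent.S14.H32

open IsDedekindDomain nonZeroDivisors Filter Topology

section Dedekind

variable {R : Type*} [CommRing R] [IsDedekindDomain R]

/-- A height one prime as an element of the monoid of nonzero ideals. -/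
noncomputable def prm (v : HeightOneSpectrum R) : (Ideal R)⁰ :=
  ⟨v.asIdeal, mem_nonZeroDivisors_of_ne_zero v.ne_bot⟩

@[simp] theorem coe_prm (v : HeightOneSpectrum R) : ((prm v : (Ideal R)⁰) : Ideal R) = v.asIdeal :=
  rfl

theorem prm_injective : Function.Injective (prm (R := R)) := by
  intro v w h
  exact HeightOneSpectrum.ext (congrArg (fun I : (Ideal R)⁰ ↦ (I : Ideal R)) h)

/-- The monomial `∏_{v ∈ S} v ^ x v`. -/
noncomputable def mono (S : Finset (HeightOneSpectrum R)) (x : S → ℕ) : (Ideal R)⁰ :=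
  ∏ v : S, prm v.1 ^ x v

theorem coe_mono (S : Finset (HeightOneSpectrum R)) (x : S → ℕ) :
    ((mono S x : (Ideal R)⁰) : Ideal R) = ∏ v : S, v.1.asIdeal ^ x v := by
  simp [mono]

theorem count_mono (S : Finset (HeightOneSpectrum R)) (x : S → ℕ) (w : S) :
    FractionalIdeal.count (FractionRing R) w.1
      (((mono S x : (Ideal R)⁰) : Ideal R) : FractionalIdeal R⁰ (FractionRing R)) = x w := by
  classical
  rw [coe_mono]
  have h1 : ((∏ v : S, v.1.asIdeal ^ x v : Ideal R) : FractionalIdeal R⁰ (FractionRing R)) =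
      ∏ v : S, ((v.1.asIdeal : Ideal R) : FractionalIdeal R⁰ (FractionRing R)) ^ x v := by
    have := map_prod (FractionalIdeal.coeIdealHom R⁰ (FractionRing R))
      (fun v : S ↦ v.1.asIdeal ^ x v) Finset.univ
    simp only [FractionalIdeal.coeIdealHom, RingHom.coe_mk, MonoidHom.coe_mk, OneHom.coe_mk,
      FractionalIdeal.coeIdeal_pow] at this
    exact this
  rw [h1, FractionalIdeal.count_prod]
  · simp_rw [FractionalIdeal.count_pow, FractionalIdeal.count_maximal]
    rw [Finset.sum_eq_single w]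
    · simp
    · intro v _ hv
      have : ¬ (v.1 = w.1) := fun h ↦ hv (Subtype.ext h)
      simp [this]
    · intro h; exact absurd (Finset.mem_univ w) h
  · intro v _
    exact pow_ne_zero _ (FractionalIdeal.coeIdeal_ne_zero.mpr v.1.ne_bot)

theorem mono_injective (S : Finset (HeightOneSpectrum R)) : Function.Injective (mono S) := by
  intro x y h
  funext w
  have hx := count_mono S x w
  have hy := count_mono S y w
  rw [h] at hx
  exact_mod_cast hx.symm.trans hy

open Classical in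
/-- The finite set of ideals `∏_{v ∈ S} v ^ x v` with all `x v < n`. -/
noncomputable def box (S : Finset (HeightOneSpectrum R)) (n : ℕ) : Finset (Ideal R)⁰ :=
  (Fintype.piFinset (fun _ : S ↦ Finset.range n)).image (mono S)

theorem prod_sum_pow_eq {M : Type*} [CommSemiring M] (f : (Ideal R)⁰ →* M)
    (S : Finset (HeightOneSpectrum R)) (n : ℕ) :
    ∏ v ∈ S, ∑ k ∈ Finset.range n, f (prm v) ^ k = ∑ I ∈ box S n, f I := by
  classical
  rw [box, Finset.sum_image (fun x _ y _ h ↦ mono_injective S h)]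
  rw [← Finset.prod_coe_sort S (fun v ↦ ∑ k ∈ Finset.range n, f (prm v) ^ k)]
  rw [Finset.prod_univ_sum]
  refine Finset.sum_congr rfl fun x _ ↦ ?_
  simp [mono, map_prod, map_pow]

theorem exists_mem_box (I : (Ideal R)⁰) :
    ∃ S₀ : Finset (HeightOneSpectrum R), ∃ n₀ : ℕ, ∀ S, S₀ ⊆ S → ∀ n, n₀ ≤ n → I ∈ box S n := by
  classical
  have hI : (I : Ideal R) ≠ 0 := nonZeroDivisors.coe_ne_zero I
  set c : HeightOneSpectrum R → ℕ := fun v ↦
    (Associates.mk v.asIdeal).count (Associates.mk (I : Ideal R)).factors with hc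
  have hfin := Ideal.finite_factors hI
  set S₀ := hfin.toFinset with hS₀
  have hc0 : ∀ v, v ∉ S₀ → c v = 0 := by
    intro v hv
    by_contra h
    exact hv (by
      rw [hS₀, Set.Finite.mem_toFinset]
      exact (Associates.count_ne_zero_iff_dvd hI v.irreducible).mp h)
  refine ⟨S₀, S₀.sup c + 1, fun S hS n hn ↦ ?_⟩
  rw [box, Finset.mem_image]
  refine ⟨fun v ↦ c v.1, ?_, ?_⟩
  · rw [Fintype.mem_piFinset]
    intro v
    rw [Finset.mem_range]
    by_cases hv : v.1 ∈ S₀
    · have := Finset.le_sup (f := c) hv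
      omega
    · rw [hc0 v.1 hv]; omega
  · apply Subtype.ext
    rw [coe_mono, Finset.prod_coe_sort S (fun v ↦ v.asIdeal ^ c v)]
    have hsupp : Function.mulSupport (fun v : HeightOneSpectrum R ↦ v.maxPowDividing (I : Ideal R))
        ⊆ (S : Set (HeightOneSpectrum R)) := by
      intro v hv
      by_contra hvS
      have hvS₀ : v ∉ S₀ := fun h ↦ hvS (hS h)
      apply hv
      simp only [IsDedekindDomain.HeightOneSpectrum.maxPowDividing]
      have := hc0 v hvS₀
      simp only [hc] at this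
      rw [this, pow_zero]
    have := finprod_eq_prod_of_mulSupport_subset _ hsupp
    rw [Ideal.finprod_heightOneSpectrum_factorization hI] at this
    rw [this]
    rfl

theorem exists_subset_box (A : Finset (Ideal R)⁰) :
    ∃ S₀ : Finset (HeightOneSpectrum R), ∃ n₀ : ℕ, ∀ S, S₀ ⊆ S → ∀ n, n₀ ≤ n → A ⊆ box S n := by
  classical
  induction A using Finset.induction_on with
  | empty => exact ⟨∅, 0, fun S _ n _ ↦ Finset.empty_subset _⟩
  | insert I A _ ih =>
    obtain ⟨S₁, n₁, h₁⟩ := ih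
    obtain ⟨S₂, n₂, h₂⟩ := exists_mem_box I
    refine ⟨S₁ ∪ S₂, max n₁ n₂, fun S hS n hn ↦ ?_⟩
    rw [Finset.insert_subset_iff]
    exact ⟨h₂ S (Finset.union_subset_right hS) n (le_trans (le_max_right _ _) hn),
      h₁ S (Finset.union_subset_left hS) n (le_trans (le_max_left _ _) hn)⟩

/-- **Euler product** over the nonzero ideals of a Dedekind domain. -/
theorem tendsto_euler {𝕜 : Type*} [NormedField 𝕜] [CompleteSpace 𝕜] (f : (Ideal R)⁰ →* 𝕜)
    (hsum : Summable fun I ↦ ‖f I‖) (hlt : ∀ v, ‖f (prm v)‖ < 1) :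
    Tendsto (fun S : Finset (HeightOneSpectrum R) ↦ ∏ v ∈ S, (1 - f (prm v))⁻¹) atTop
      (𝓝 (∑' I, f I)) := by
  classical
  have hf : HasSum f (∑' I, f I) := hsum.of_norm.hasSum
  rw [Metric.tendsto_atTop]
  intro ε hε
  have hev := hf.eventually (Metric.ball_mem_nhds _ (half_pos hε))
  obtain ⟨A, hA⟩ := Filter.eventually_atTop.mp hev
  obtain ⟨S₀, n₀, hsub⟩ := exists_subset_box A
  refine ⟨S₀, fun S hS ↦ ?_⟩
  have key : ∀ n, n₀ ≤ n →
      dist (∏ v ∈ S, ∑ k ∈ Finset.range n, f (prm v) ^ k) (∑' I, f I) < ε / 2 := by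
    intro n hn
    rw [prod_sum_pow_eq]
    exact hA (box S n) (hsub S hS n hn)
  have hlim : Tendsto (fun n ↦ ∏ v ∈ S, ∑ k ∈ Finset.range n, f (prm v) ^ k) atTop
      (𝓝 (∏ v ∈ S, (1 - f (prm v))⁻¹)) :=
    tendsto_finsetProd _ fun v _ ↦ (hasSum_geometric_of_norm_lt_one (hlt v)).tendsto_sum_nat
  have hle : dist (∏ v ∈ S, (1 - f (prm v))⁻¹) (∑' I, f I) ≤ ε / 2 :=
    le_of_tendsto (hlim.dist tendsto_const_nhds)
      (eventually_atTop.mpr ⟨n₀, fun n hn ↦ (key n hn).le⟩)
  linarith

end Dedekind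

end Fermat.Agent.S14.H32
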