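import Mathlib

/-!
# S14 / package D (helper32): the ideal series `∑ N(I)^{-s}` over nonzero ideals

Bridge between Mathlib's `NumberField.dedekindZeta` (an `LSeries` with coefficients the number of
ideals of norm `n`) and the series over nonzero ideals, together with the bounds near `s = 1`
coming from the analytic class number formula.
-/

namespace Fermat.Agent.S14.H32

open NumberField Ideal Filter Topology nonZeroDivisors Asymptotics

variable (K : Type*) [Field K] [NumberField K]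

/-- The Dirichlet coefficients of the Dedekind zeta function have a convergent L-series. -/
theorem lseriesSummable_dedekind {s : ℝ} (hs : 1 < s) :
    LSeriesSummable (fun n ↦ ((Nat.card {I : Ideal (𝓞 K) // absNorm I = n} : ℝ) : ℂ)) s := by
  have hlim : Tendsto (fun n : ℕ ↦ (∑ k ∈ Finset.Icc 1 n,
      (Nat.card {I : Ideal (𝓞 K) // absNorm I = k} : ℝ)) / (n : ℝ)) atTop
      (𝓝 (dedekindZeta_residue K)) := by
    refine ((Ideal.tendsto_norm_le_div_atTop₀ K).comp tendsto_natCast_atTop_atTop).congr fun n ↦ ?_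
    simp only [Function.comp_apply, Nat.cast_le, ← Nat.cast_sum]
    congr
    rw [← add_left_inj 1, ← card_norm_le_eq_card_norm_le_add_one,
      show Finset.Icc 1 n = Finset.Ioc 0 n from Finset.Icc_succ_left_eq_Ioc _ _,
      show 1 = Nat.card {I : Ideal (𝓞 K) // absNorm I = 0} by simp [Ideal.absNorm_eq_zero_iff],
      Finset.sum_Ioc_add_eq_sum_Icc (n.zero_le),
      ← Finset.card_preimage_eq_sum_card_image_eq (fun k _ ↦ finite_setOfPred_absNorm_eq k)]
    simp [Set.coe_eq_subtype]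
  refine LSeriesSummable_of_sum_norm_bigO_and_nonneg ?_ (fun _ ↦ Nat.cast_nonneg _) zero_le_one
    (by simpa using hs)
  exact isBigO_atTop_natCast_rpow_of_tendsto_div_rpow (by simpa using hlim)

/-- The term of the ideal series. -/
noncomputable def nrm (s : ℝ) (I : (Ideal (𝓞 K))⁰) : ℝ :=
  (absNorm (I : Ideal (𝓞 K)) : ℝ) ^ (-s)

variable {K}

theorem nrm_nonneg (s : ℝ) (I : (Ideal (𝓞 K))⁰) : 0 ≤ nrm K s I :=
  Real.rpow_nonneg (Nat.cast_nonneg _) _

theorem absNorm_pos' (I : (Ideal (𝓞 K))⁰) : 0 < absNorm (I : Ideal (𝓞 K)) := by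
  refine Nat.pos_of_ne_zero fun h ↦ ?_
  rw [Ideal.absNorm_eq_zero_iff] at h
  exact nonZeroDivisors.coe_ne_zero I h

theorem nrm_pos (s : ℝ) (I : (Ideal (𝓞 K))⁰) : 0 < nrm K s I :=
  Real.rpow_pos_of_pos (Nat.cast_pos.mpr (absNorm_pos' I)) _

theorem nrm_mul (s : ℝ) (I J : (Ideal (𝓞 K))⁰) : nrm K s (I * J) = nrm K s I * nrm K s J := by
  simp only [nrm, Submonoid.coe_mul, map_mul, Nat.cast_mul]
  exact Real.mul_rpow (Nat.cast_nonneg _) (Nat.cast_nonneg _)

theorem nrm_one (s : ℝ) : nrm K s 1 = 1 := by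
  simp [nrm]

theorem nrm_le_one {s : ℝ} (hs : 0 ≤ s) (I : (Ideal (𝓞 K))⁰) : nrm K s I ≤ 1 := by
  refine Real.rpow_le_one_of_one_le_of_nonpos ?_ (by linarith)
  exact_mod_cast absNorm_pos' I

theorem nrm_anti {s t : ℝ} (hst : s ≤ t) (I : (Ideal (𝓞 K))⁰) : nrm K t I ≤ nrm K s I := by
  refine Real.rpow_le_rpow_of_exponent_le ?_ (by linarith)
  exact_mod_cast absNorm_pos' I

variable (K)

/-- The series over nonzero ideals sums to the Dedekind zeta function. -/
theorem hasSum_nrm {s : ℝ} (hs : 1 < s) :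
    HasSum (nrm K s) (dedekindZeta K s).re := by
  classical
  set f : ℕ → ℂ := fun n ↦ ((Nat.card {I : Ideal (𝓞 K) // absNorm I = n} : ℝ) : ℂ) with hf
  have hS : Summable (LSeries.term f s) := lseriesSummable_dedekind K hs
  have h1 : HasSum (fun n ↦ (LSeries.term f s n).re) (dedekindZeta K s).re :=
    Complex.hasSum_re hS.hasSum
  -- fibers
  let e := Equiv.sigmaFiberEquiv (fun I : (Ideal (𝓞 K))⁰ ↦ absNorm (I : Ideal (𝓞 K)))
  have hfin : ∀ n : ℕ, Finite {I : (Ideal (𝓞 K))⁰ // absNorm (I : Ideal (𝓞 K)) = n} := by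
    intro n
    have := Ideal.finite_setOfPred_absNorm_le₀ (S := 𝓞 K) n
    exact Set.Finite.subset this (fun I (hI : absNorm (I : Ideal (𝓞 K)) = n) ↦ hI.le)
  have hcard : ∀ n : ℕ, n ≠ 0 →
      Nat.card {I : (Ideal (𝓞 K))⁰ // absNorm (I : Ideal (𝓞 K)) = n} =
        Nat.card {I : Ideal (𝓞 K) // absNorm I = n} := by
    intro n hn
    refine Nat.card_congr ⟨fun I ↦ ⟨I.1.1, I.2⟩, fun I ↦ ⟨⟨I.1, ?_⟩, I.2⟩, fun _ ↦ rfl, fun _ ↦ rfl⟩
    rw [mem_nonZeroDivisors_iff_ne_zero]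
    rintro h
    have := I.2
    rw [h] at this
    simp at this
    exact hn this.symm
  have hterm : ∀ n : ℕ, HasSum (fun c : {I : (Ideal (𝓞 K))⁰ // absNorm (I : Ideal (𝓞 K)) = n} ↦
      nrm K s (e ⟨n, c⟩)) ((LSeries.term f s n).re) := by
    intro n
    have := hfin n
    have := Fintype.ofFinite {I : (Ideal (𝓞 K))⁰ // absNorm (I : Ideal (𝓞 K)) = n}
    have hc : ∀ c : {I : (Ideal (𝓞 K))⁰ // absNorm (I : Ideal (𝓞 K)) = n},
        nrm K s (e ⟨n, c⟩) = (n : ℝ) ^ (-s) := by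
      intro c
      simp only [nrm, e, Equiv.sigmaFiberEquiv_apply, c.2]
    simp_rw [hc]
    have : (LSeries.term f s n).re =
        ∑ _c : {I : (Ideal (𝓞 K))⁰ // absNorm (I : Ideal (𝓞 K)) = n}, (n : ℝ) ^ (-s) := by
      rw [Finset.sum_const, Finset.card_univ, nsmul_eq_mul, ← Nat.card_eq_fintype_card]
      rcases eq_or_ne n 0 with rfl | hn
      · simp only [LSeries.term_zero, Complex.zero_re, CharP.cast_eq_zero]
        rw [Real.zero_rpow (by linarith), mul_zero]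
      · rw [LSeries.term_of_ne_zero hn, hcard n hn, hf]
        simp only
        rw [show ((n : ℂ) ^ (s : ℂ)) = (((n : ℝ) ^ s : ℝ) : ℂ) by
          rw [Complex.ofReal_cpow (Nat.cast_nonneg _)]; simp]
        rw [← Complex.ofReal_div, Complex.ofReal_re, Real.rpow_neg (Nat.cast_nonneg _),
          div_eq_mul_inv]
    rw [this]
    exact hasSum_fintype _
  have hsum : Summable (fun x : (Σ n : ℕ, {I : (Ideal (𝓞 K))⁰ // absNorm (I : Ideal (𝓞 K)) = n}) ↦
      nrm K s (e x)) := by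
    rw [summable_sigma_of_nonneg (fun x ↦ nrm_nonneg s _)]
    refine ⟨fun n ↦ (hterm n).summable, ?_⟩
    refine h1.summable.congr fun n ↦ ?_
    exact ((hterm n).tsum_eq).symm
  have := HasSum.sigma_of_hasSum h1 hterm hsum
  exact (Equiv.hasSum_iff e).mp this

theorem summable_nrm {s : ℝ} (hs : 1 < s) : Summable (nrm K s) := (hasSum_nrm K hs).summable

/-- The value of the ideal series. -/
noncomputable def zetaR (s : ℝ) : ℝ := ∑' I : (Ideal (𝓞 K))⁰, nrm K s I

theorem zetaR_eq {s : ℝ} (hs : 1 < s) : zetaR K s = (dedekindZeta K s).re :=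
  (hasSum_nrm K hs).tsum_eq

theorem zetaR_nonneg (s : ℝ) : 0 ≤ zetaR K s := tsum_nonneg fun I ↦ nrm_nonneg s I

theorem zetaR_anti {s t : ℝ} (hs : 1 < s) (hst : s ≤ t) : zetaR K t ≤ zetaR K s :=
  (summable_nrm K (hs.trans_le hst)).tsum_le_tsum (fun I ↦ nrm_anti hst I) (summable_nrm K hs)

/-- Finite partial sums are bounded by the full series. -/
theorem sum_nrm_le_zetaR {s : ℝ} (hs : 1 < s) (A : Finset (Ideal (𝓞 K))⁰) :
    ∑ I ∈ A, nrm K s I ≤ zetaR K s :=
  (summable_nrm K hs).sum_le_tsum A (fun I _ ↦ nrm_nonneg s I)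

theorem one_le_zetaR {s : ℝ} (hs : 1 < s) : 1 ≤ zetaR K s := by
  have := sum_nrm_le_zetaR K hs {1}
  simpa [nrm_one] using this

theorem tendsto_sub_one_mul_zetaR :
    Tendsto (fun s : ℝ ↦ (s - 1) * zetaR K s) (𝓝[>] 1) (𝓝 (dedekindZeta_residue K)) := by
  have h := tendsto_sub_one_mul_dedekindZeta_nhdsGT K
  have h2 : Tendsto (fun s : ℝ ↦ (((s : ℂ) - 1) * dedekindZeta K s).re) (𝓝[>] 1)
      (𝓝 (dedekindZeta_residue K)) := by
    have := (Complex.continuous_re.tendsto _).comp h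
    rw [Complex.ofReal_re] at this
    exact this
  refine h2.congr' ?_
  filter_upwards [self_mem_nhdsWithin] with s hs
  rw [zetaR_eq K hs]
  have : ((s : ℂ) - 1) = ((s - 1 : ℝ) : ℂ) := by push_cast; ring
  rw [this, Complex.re_ofReal_mul]

/-- Upper bound `ζ_K(s) ≤ C / (s - 1)` on `(1, 2]`. -/
theorem exists_zetaR_le :
    ∃ C : ℝ, 0 < C ∧ ∀ s : ℝ, 1 < s → s ≤ 2 → zetaR K s ≤ C / (s - 1) := by
  have h := tendsto_sub_one_mul_zetaR K
  have hev : ∀ᶠ s in 𝓝[>] (1 : ℝ), (s - 1) * zetaR K s < dedekindZeta_residue K + 1 :=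
    h.eventually (gt_mem_nhds (lt_add_one _))
  rw [eventually_nhdsWithin_iff, Metric.eventually_nhds_iff] at hev
  obtain ⟨δ, hδ, hδ'⟩ := hev
  have hρ := dedekindZeta_residue_pos K
  set δ' := min δ 1 with hδ'def
  have hδ'pos : 0 < δ' := lt_min hδ one_pos
  set M := zetaR K (1 + δ' / 2) with hM
  have hMpos : 0 < M := lt_of_lt_of_le one_pos (one_le_zetaR K (by linarith))
  refine ⟨max (dedekindZeta_residue K + 1) M, lt_max_of_lt_right hMpos, fun s hs hs2 ↦ ?_⟩
  have hs1 : 0 < s - 1 := by linarith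
  rw [le_div_iff₀ hs1, mul_comm]
  by_cases hsδ : s < 1 + δ' / 2
  · have hd : dist s 1 < δ := by
      rw [Real.dist_eq, abs_of_pos hs1]
      have : δ' ≤ δ := min_le_left _ _
      linarith
    exact (hδ' hd hs).le.trans (le_max_left _ _)
  · rw [not_lt] at hsδ
    have h1 : zetaR K s ≤ M := zetaR_anti K (by linarith) hsδ
    calc (s - 1) * zetaR K s ≤ 1 * M := by
          apply mul_le_mul (by linarith) h1 (zetaR_nonneg K s) zero_le_one
      _ = M := one_mul _
      _ ≤ _ := le_max_right _ _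

/-- Lower bound `c / (s - 1) ≤ ζ_K(s)` near `1`. -/
theorem exists_zetaR_ge :
    ∃ c : ℝ, 0 < c ∧ ∃ δ : ℝ, 0 < δ ∧ ∀ s : ℝ, 1 < s → s < 1 + δ → c / (s - 1) ≤ zetaR K s := by
  have h := tendsto_sub_one_mul_zetaR K
  have hρ := dedekindZeta_residue_pos K
  have hev : ∀ᶠ s in 𝓝[>] (1 : ℝ), dedekindZeta_residue K / 2 < (s - 1) * zetaR K s :=
    h.eventually (lt_mem_nhds (by linarith))
  rw [eventually_nhdsWithin_iff, Metric.eventually_nhds_iff] at hev
  obtain ⟨δ, hδ, hδ'⟩ := hev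
  refine ⟨dedekindZeta_residue K / 2, by linarith, δ, hδ, fun s hs hsδ ↦ ?_⟩
  have hs1 : 0 < s - 1 := by linarith
  rw [div_le_iff₀ hs1, mul_comm]
  have hd : dist s 1 < δ := by
    rw [Real.dist_eq, abs_of_pos hs1]
    linarith
  exact (hδ' hd hs).le

end Fermat.Agent.S14.H32
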