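import Fermat.Agent.S14.H32.Dens
import Fermat.Agent.S14.H81.Adapter32

/-!
# S14 / package D4 (helper32): DENS in the skeleton shape, modulo D1 and D3

`exists_prime_char_ne_one_not_pow_of` is the skeleton statement `exists_prime_char_ne_one_not_pow`
with the two remaining analytic inputs as explicit hypotheses:
* `hL`: boundedness of nontrivial class `L`-series on `(1, 2]` (package D1);
* `hK`: the Kummer-splitting bound (package D3).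
-/

namespace Fermat.Agent.S14.H32

open NumberField Ideal nonZeroDivisors IsDedekindDomain

variable {p : ℕ} [Fact p.Prime] {K : Type*} [Field K] [NumberField K]

theorem exists_prime_char_ne_one_not_pow_of (hp : 3 ≤ p)
    (η : 𝓞 K) (hη : ∀ x : K, x ^ p ≠ (η : K))
    (lam : ClassGroup (𝓞 K) →* Multiplicative (ZMod p)) (hlam : lam ≠ 1)
    (hL : ∀ χ : ClassGroup (𝓞 K) →* ℂˣ, χ ≠ 1 → ∃ C : ℝ, ∀ s : ℝ, 1 < s → s ≤ 2 →
      ‖∑' I : (Ideal (𝓞 K))⁰, (χ (ClassGroup.mk0 I) : ℂ) *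
        (((absNorm (I : Ideal (𝓞 K)) : ℝ) ^ (-s) : ℝ) : ℂ)‖ ≤ C)
    (hK : ∃ C : ℝ, ∀ s : ℝ, 1 < s → s ≤ 2 → ∀ S : Finset (HeightOneSpectrum (𝓞 K)),
      (∀ v ∈ S, (p : 𝓞 K) ∉ v.asIdeal ∧ η ∉ v.asIdeal ∧ ∃ y : 𝓞 K, η - y ^ p ∈ v.asIdeal) →
      ∑ v ∈ S, nrm K s (prm v) ≤ (1 / p) * Real.log (1 / (s - 1)) + C) :
    ∃ Q : (Ideal (𝓞 K))⁰, (Q : Ideal (𝓞 K)).IsPrime ∧
      (Ideal.absNorm (Q : Ideal (𝓞 K))).Prime ∧ (p : 𝓞 K) ∉ (Q : Ideal (𝓞 K)) ∧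
      lam (ClassGroup.mk0 Q) ≠ 1 ∧ ∀ y : 𝓞 K, η - y ^ p ∉ (Q : Ideal (𝓞 K)) := by
  have hη0 : η ≠ 0 := by
    rintro rfl
    exact hη 0 (by simp [(Fact.out : p.Prime).ne_zero])
  obtain ⟨v, -, h2, h3, -, h5, h6⟩ := exists_prime_of_bounds K p hp η hη0 lam hlam ∅ hL hK
    (H81.exists_bound_sum_not_prime_norm K)
  exact ⟨prm v, v.isPrime, h2, h3, h5, h6⟩

end Fermat.Agent.S14.H32
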