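import Fermat.Agent.S14.H32.PrimeSums

/-!
# S14 / package D (helper32): primes in the kernel of a class character of order `p`

If all nontrivial class-group `L`-series are bounded on `(1, 2]`, then for a nontrivial
`lam : ClassGroup (𝓞 K) →* Multiplicative (ZMod p)` the primes `v` with `lam [v] = 1` satisfy
`∑_{v ∈ S} N v^{-s} ≤ (1/p) log (1/(s-1)) + C` uniformly in finite sets `S` of such primes.
-/

namespace Fermat.Agent.S14.H32

open NumberField Ideal Filter Topology nonZeroDivisors IsDedekindDomain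

section roots

variable (p : ℕ) [Fact p.Prime]

theorem isPrimitiveRoot_stdAddChar_one :
    IsPrimitiveRoot (ZMod.stdAddChar (N := p) (1 : ZMod p)) p := by
  have h := ZMod.stdAddChar_coe (N := p) 1
  have hp : (p : ℂ) ≠ 0 := Nat.cast_ne_zero.mpr (Fact.out : p.Prime).ne_zero
  have h2 := Complex.isPrimitiveRoot_exp p (Fact.out : p.Prime).ne_zero
  simp only [Int.cast_one, mul_one] at h
  rw [h]
  exact h2

theorem prod_one_sub_stdAddChar_mul (x : ℂ) :
    ∏ m : ZMod p, (1 - ZMod.stdAddChar m * x) = 1 - x ^ p := by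
  classical
  have hp0 : 0 < p := (Fact.out : p.Prime).pos
  have hprim := isPrimitiveRoot_stdAddChar_one p
  have h1 := hprim.pow_sub_pow_eq_prod_sub_mul (1 : ℂ) x hp0
  rw [one_pow] at h1
  rw [h1]
  have himg : (Finset.univ : Finset (ZMod p)).image (fun m ↦ ZMod.stdAddChar (N := p) m) =
      Polynomial.nthRootsFinset p (1 : ℂ) := by
    apply Finset.eq_of_subset_of_card_le
    · intro z hz
      rw [Finset.mem_image] at hz
      obtain ⟨m, -, rfl⟩ := hz
      rw [Polynomial.mem_nthRootsFinset hp0]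
      rw [← AddChar.map_nsmul_eq_pow]
      simp
    · rw [hprim.card_nthRootsFinset, Finset.card_image_of_injective _ ZMod.injective_stdAddChar]
      simp
  rw [← himg, Finset.prod_image (fun a _ b _ h ↦ ZMod.injective_stdAddChar h)]

theorem prod_one_sub_stdAddChar_mul_mul (j : ZMod p) (x : ℂ) :
    ∏ k : ZMod p, (1 - ZMod.stdAddChar (k * j) * x) =
      if j = 0 then (1 - x) ^ p else 1 - x ^ p := by
  split_ifs with hj
  · subst hj
    simp
  · rw [← prod_one_sub_stdAddChar_mul p x]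
    exact Fintype.prod_equiv (Equiv.mulRight₀ j hj) _ _ (fun k ↦ rfl)

end roots

variable (K : Type*) [Field K] [NumberField K] (p : ℕ) [Fact p.Prime]

/-- The complex characters `c ↦ e(k · lam c / p)` of the class group. -/
noncomputable def chiHom (lam : ClassGroup (𝓞 K) →* Multiplicative (ZMod p)) (k : ZMod p) :
    ClassGroup (𝓞 K) →* ℂ where
  toFun c := ZMod.stdAddChar (N := p) (k * Multiplicative.toAdd (lam c))
  map_one' := by simp
  map_mul' a b := by simp [mul_add, AddChar.map_add_eq_mul]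

theorem norm_chiHom (lam : ClassGroup (𝓞 K) →* Multiplicative (ZMod p)) (k : ZMod p)
    (c : ClassGroup (𝓞 K)) : ‖chiHom K p lam k c‖ = 1 := by
  show ‖ZMod.stdAddChar (N := p) (k * Multiplicative.toAdd (lam c))‖ = 1
  exact AddChar.norm_apply _ _

/-- The completely multiplicative function `I ↦ χ_k(I) N(I)^{-s}`. -/
noncomputable def fHom (lam : ClassGroup (𝓞 K) →* Multiplicative (ZMod p)) (s : ℝ) (k : ZMod p) :
    (Ideal (𝓞 K))⁰ →* ℂ where
  toFun I := chiHom K p lam k (ClassGroup.mk0 I) * (nrm K s I : ℂ)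
  map_one' := by simp [nrm_one]
  map_mul' a b := by
    simp only [map_mul, nrm_mul, Complex.ofReal_mul]
    ring

theorem norm_fHom (lam : ClassGroup (𝓞 K) →* Multiplicative (ZMod p)) (s : ℝ) (k : ZMod p)
    (I : (Ideal (𝓞 K))⁰) : ‖fHom K p lam s k I‖ = nrm K s I := by
  simp only [fHom, MonoidHom.coe_mk, OneHom.coe_mk, norm_mul, norm_chiHom, one_mul,
    Complex.norm_real, Real.norm_of_nonneg (nrm_nonneg s I)]

/-- The local factor at `v` of `∏_k L(s, χ_k)`. -/
noncomputable def gFac (lam : ClassGroup (𝓞 K) →* Multiplicative (ZMod p)) (s : ℝ)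
    (v : HeightOneSpectrum (𝓞 K)) : ℝ :=
  if lam (ClassGroup.mk0 (prm v)) = 1 then (1 - nrm K s (prm v)) ^ p
  else 1 - nrm K s (prm v) ^ p

theorem gFac_pos (lam : ClassGroup (𝓞 K) →* Multiplicative (ZMod p)) {s : ℝ} (hs : 1 ≤ s)
    (v : HeightOneSpectrum (𝓞 K)) : 0 < gFac K p lam s v := by
  have h1 := nrm_prm_lt_one hs v
  have h0 := nrm_nonneg s (prm v)
  unfold gFac
  split_ifs
  · exact pow_pos (by linarith) _
  · have : nrm K s (prm v) ^ p < 1 := pow_lt_one₀ h0 h1 (Fact.out : p.Prime).ne_zero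
    linarith

theorem gFac_le_one (lam : ClassGroup (𝓞 K) →* Multiplicative (ZMod p)) {s : ℝ} (hs : 1 ≤ s)
    (v : HeightOneSpectrum (𝓞 K)) : gFac K p lam s v ≤ 1 := by
  have h1 := nrm_prm_lt_one hs v
  have h0 := nrm_nonneg s (prm v)
  unfold gFac
  split_ifs
  · exact pow_le_one₀ (by linarith) (by linarith)
  · have : 0 ≤ nrm K s (prm v) ^ p := pow_nonneg h0 _
    linarith

theorem prod_inv_one_sub_fHom (lam : ClassGroup (𝓞 K) →* Multiplicative (ZMod p)) (s : ℝ)
    (v : HeightOneSpectrum (𝓞 K)) :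
    ∏ k : ZMod p, (1 - fHom K p lam s k (prm v))⁻¹ = (((gFac K p lam s v)⁻¹ : ℝ) : ℂ) := by
  rw [Finset.prod_inv_distrib]
  have := prod_one_sub_stdAddChar_mul_mul p (Multiplicative.toAdd (lam (ClassGroup.mk0 (prm v))))
    (nrm K s (prm v) : ℂ)
  simp only [fHom, chiHom, MonoidHom.coe_mk, OneHom.coe_mk]
  rw [this, Complex.ofReal_inv]
  congr 1
  unfold gFac
  by_cases h : lam (ClassGroup.mk0 (prm v)) = 1
  · have h' : Multiplicative.toAdd (lam (ClassGroup.mk0 (prm v))) = 0 := by rw [h]; rfl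
    rw [if_pos h, if_pos h']
    push_cast; ring
  · have h' : ¬ Multiplicative.toAdd (lam (ClassGroup.mk0 (prm v))) = 0 := by
      intro h0
      exact h (by rw [← ofAdd_toAdd (lam (ClassGroup.mk0 (prm v))), h0]; rfl)
    rw [if_neg h, if_neg h']
    push_cast; ring

/-- The `L`-value attached to `χ_k`. -/
noncomputable def LVal (lam : ClassGroup (𝓞 K) →* Multiplicative (ZMod p)) (s : ℝ) (k : ZMod p) :
    ℂ := ∑' I : (Ideal (𝓞 K))⁰, fHom K p lam s k I

theorem LVal_zero (lam : ClassGroup (𝓞 K) →* Multiplicative (ZMod p)) (s : ℝ) :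
    LVal K p lam s 0 = (zetaR K s : ℂ) := by
  unfold LVal zetaR
  rw [Complex.ofReal_tsum]
  refine tsum_congr fun I ↦ ?_
  simp [fHom, chiHom]

/-- The product of the finite Euler products converges to `∏_k L(s, χ_k)`. -/
theorem tendsto_prod_gFac (lam : ClassGroup (𝓞 K) →* Multiplicative (ZMod p)) {s : ℝ}
    (hs : 1 < s) :
    Tendsto (fun S : Finset (HeightOneSpectrum (𝓞 K)) ↦ ∏ v ∈ S, (gFac K p lam s v)⁻¹) atTop
      (𝓝 ‖∏ k : ZMod p, LVal K p lam s k‖) := by
  have h1 : ∀ k : ZMod p, Tendsto (fun S : Finset (HeightOneSpectrum (𝓞 K)) ↦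
      ∏ v ∈ S, (1 - fHom K p lam s k (prm v))⁻¹) atTop (𝓝 (LVal K p lam s k)) := by
    intro k
    refine tendsto_euler (fHom K p lam s k) ?_ ?_
    · simp_rw [norm_fHom]; exact summable_nrm K hs
    · intro v; rw [norm_fHom]; exact nrm_prm_lt_one hs.le v
  have h2 : Tendsto (fun S : Finset (HeightOneSpectrum (𝓞 K)) ↦
      ∏ k : ZMod p, ∏ v ∈ S, (1 - fHom K p lam s k (prm v))⁻¹) atTop
      (𝓝 (∏ k : ZMod p, LVal K p lam s k)) :=
    tendsto_finsetProd _ fun k _ ↦ h1 k
  have h3 := h2.norm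
  refine h3.congr fun S ↦ ?_
  rw [Finset.prod_comm]
  simp_rw [prod_inv_one_sub_fHom]
  rw [← Complex.ofReal_prod, Complex.norm_real, Real.norm_of_nonneg]
  exact Finset.prod_nonneg fun v _ ↦ (inv_pos.mpr (gFac_pos K p lam hs.le v)).le

/-- Lower bound of `‖∏_k L(s, χ_k)‖` by the Euler factors at primes in the kernel of `lam`. -/
theorem exp_sum_le_norm_prod_LVal (lam : ClassGroup (𝓞 K) →* Multiplicative (ZMod p)) {s : ℝ}
    (hs : 1 < s) (S₀ : Finset (HeightOneSpectrum (𝓞 K)))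
    (hS₀ : ∀ v ∈ S₀, lam (ClassGroup.mk0 (prm v)) = 1) :
    Real.exp (p * ∑ v ∈ S₀, nrm K s (prm v)) ≤ ‖∏ k : ZMod p, LVal K p lam s k‖ := by
  classical
  have hge : ∀ S : Finset (HeightOneSpectrum (𝓞 K)), S₀ ≤ S →
      ∏ v ∈ S₀, (gFac K p lam s v)⁻¹ ≤ ∏ v ∈ S, (gFac K p lam s v)⁻¹ := by
    intro S hS
    rw [← Finset.prod_sdiff hS]
    have h1 : 1 ≤ ∏ v ∈ S \ S₀, (gFac K p lam s v)⁻¹ :=
      Finset.one_le_prod fun v _ ↦ (one_le_inv₀ (gFac_pos K p lam hs.le v)).mpr
        (gFac_le_one K p lam hs.le v)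
    have h2 : 0 ≤ ∏ v ∈ S₀, (gFac K p lam s v)⁻¹ :=
      Finset.prod_nonneg fun v _ ↦ (inv_pos.mpr (gFac_pos K p lam hs.le v)).le
    nlinarith
  have hle := ge_of_tendsto (tendsto_prod_gFac K p lam hs)
    (eventually_atTop.mpr ⟨S₀, fun S hS ↦ hge S hS⟩)
  refine le_trans ?_ hle
  rw [Finset.mul_sum, Real.exp_sum]
  refine Finset.prod_le_prod (fun v _ ↦ (Real.exp_pos _).le) (fun v hv ↦ ?_)
  have hx1 := nrm_prm_lt_one hs.le v
  have hg : gFac K p lam s v = (1 - nrm K s (prm v)) ^ p := by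
    unfold gFac; rw [if_pos (hS₀ v hv)]
  rw [hg, ← inv_pow, show (p : ℝ) * nrm K s (prm v) = (p : ℕ) • nrm K s (prm v) by simp,
    Real.exp_nsmul]
  exact pow_le_pow_left₀ (Real.exp_pos _).le (exp_le_inv_one_sub hx1) p

/-- **Primes in the kernel of a class character of order `p` have density at most `1/p`**,
assuming boundedness of the nontrivial class `L`-series near `s = 1`. -/
theorem exists_sum_prm_ker_le (lam : ClassGroup (𝓞 K) →* Multiplicative (ZMod p))
    (hlam : lam ≠ 1)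
    (hL : ∀ χ : ClassGroup (𝓞 K) →* ℂˣ, χ ≠ 1 → ∃ C : ℝ, ∀ s : ℝ, 1 < s → s ≤ 2 →
      ‖∑' I : (Ideal (𝓞 K))⁰, (χ (ClassGroup.mk0 I) : ℂ) * ((nrm K s I : ℝ) : ℂ)‖ ≤ C) :
    ∃ C : ℝ, ∀ s : ℝ, 1 < s → s ≤ 2 → ∀ S : Finset (HeightOneSpectrum (𝓞 K)),
      (∀ v ∈ S, lam (ClassGroup.mk0 (prm v)) = 1) →
      ∑ v ∈ S, nrm K s (prm v) ≤ (1 / p) * Real.log (1 / (s - 1)) + C := by
  classical
  have hp0 : (0 : ℝ) < p := Nat.cast_pos.mpr (Fact.out : p.Prime).pos
  -- bounds for the nontrivial characters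
  have hB : ∀ k : ZMod p, ∃ B : ℝ, k ≠ 0 → ∀ s : ℝ, 1 < s → s ≤ 2 → ‖LVal K p lam s k‖ ≤ B := by
    intro k
    by_cases hk : k = 0
    · exact ⟨0, fun h ↦ absurd hk h⟩
    · have hne : (chiHom K p lam k).toHomUnits ≠ 1 := by
        intro h
        apply hlam
        ext c
        have hc := congrArg (fun χ : ClassGroup (𝓞 K) →* ℂˣ ↦ ((χ c : ℂˣ) : ℂ)) h
        simp only [MonoidHom.coe_toHomUnits, MonoidHom.one_apply, Units.val_one] at hc
        have hc' : ZMod.stdAddChar (N := p) (k * Multiplicative.toAdd (lam c)) =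
            ZMod.stdAddChar (N := p) 0 := by
          rw [AddChar.map_zero_eq_one]; exact hc
        have h0 := ZMod.injective_stdAddChar hc'
        rcases mul_eq_zero.mp h0 with h0 | h0
        · exact absurd h0 hk
        · rw [MonoidHom.one_apply, ← ofAdd_toAdd (lam c), h0]; rfl
      obtain ⟨C, hC⟩ := hL _ hne
      refine ⟨C, fun _ s hs hs2 ↦ ?_⟩
      have := hC s hs hs2
      simpa [LVal, fHom] using this
  choose B hB using hB
  obtain ⟨C, hC, hζ⟩ := exists_zetaR_le K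
  set Bt : ℝ := ∏ k ∈ (Finset.univ : Finset (ZMod p)).erase 0, max (B k) 1 with hBt
  have hBt1 : 1 ≤ Bt := Finset.one_le_prod fun k _ ↦ le_max_right _ _
  refine ⟨(Real.log C + Real.log Bt) / p, fun s hs hs2 S hS ↦ ?_⟩
  have hs1 : 0 < s - 1 := by linarith
  have h1 := exp_sum_le_norm_prod_LVal K p lam hs S hS
  have h2 : ‖∏ k : ZMod p, LVal K p lam s k‖ ≤ C / (s - 1) * Bt := by
    rw [norm_prod, ← Finset.mul_prod_erase Finset.univ _ (Finset.mem_univ (0 : ZMod p))]
    refine mul_le_mul ?_ ?_ (Finset.prod_nonneg fun _ _ ↦ norm_nonneg _) (by positivity)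
    · rw [LVal_zero, Complex.norm_real, Real.norm_of_nonneg (zetaR_nonneg K s)]
      exact hζ s hs hs2
    · refine Finset.prod_le_prod (fun _ _ ↦ norm_nonneg _) (fun k hk ↦ ?_)
      exact (hB k (Finset.ne_of_mem_erase hk) s hs hs2).trans (le_max_left _ _)
  have h3 : Real.exp (p * ∑ v ∈ S, nrm K s (prm v)) ≤ C / (s - 1) * Bt := h1.trans h2
  have hpos : 0 < C / (s - 1) * Bt := by positivity
  rw [← Real.le_log_iff_exp_le hpos] at h3
  have h4 : Real.log (C / (s - 1) * Bt) = Real.log (1 / (s - 1)) + Real.log C + Real.log Bt := by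
    rw [Real.log_mul (by positivity) (by positivity), div_eq_mul_one_div,
      Real.log_mul hC.ne' (by positivity)]
    ring
  rw [h4] at h3
  have h5 : ∑ v ∈ S, nrm K s (prm v) ≤
      (Real.log (1 / (s - 1)) + Real.log C + Real.log Bt) / p := by
    rw [le_div_iff₀ hp0]; linarith
  calc ∑ v ∈ S, nrm K s (prm v) ≤ (Real.log (1 / (s - 1)) + Real.log C + Real.log Bt) / p := h5
    _ = 1 / p * Real.log (1 / (s - 1)) + (Real.log C + Real.log Bt) / p := by ring

end Fermat.Agent.S14.H32
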