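import Fermat.Agent.S14.H32.IdealSeries

/-!
# S14 / package D1, assembly step (helper32): class `L`-series from partial zeta differences

If the partial zeta functions of any two ideal classes differ by at most `C` on `(1, 2]`, then
every nontrivial class-group `L`-series is bounded by `h_K · C` there.  This is the passage from
`exists_bound_partialZeta_sub` to `exists_bound_classLSeries` in the shapes of report #589.
-/

namespace Fermat.Agent.S14.H32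

open NumberField Ideal nonZeroDivisors

variable (K : Type*) [Field K] [NumberField K]

/-- The partial zeta function of an ideal class. -/
noncomputable def partialZeta (s : ℝ) (c : ClassGroup (𝓞 K)) : ℝ :=
  ∑' I : {I : (Ideal (𝓞 K))⁰ // ClassGroup.mk0 I = c},
    (absNorm (I.1 : Ideal (𝓞 K)) : ℝ) ^ (-s)

theorem norm_classChar (χ : ClassGroup (𝓞 K) →* ℂˣ) (c : ClassGroup (𝓞 K)) :
    ‖((χ c : ℂˣ) : ℂ)‖ = 1 := by
  have h : c ^ Fintype.card (ClassGroup (𝓞 K)) = 1 := pow_card_eq_one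
  have h2 : ((χ c : ℂˣ) : ℂ) ^ Fintype.card (ClassGroup (𝓞 K)) = 1 := by
    rw [← Units.val_pow_eq_pow_val, ← map_pow, h, map_one, Units.val_one]
  exact Complex.norm_eq_one_of_pow_eq_one h2 Fintype.card_ne_zero

theorem summable_classChar_mul (χ : ClassGroup (𝓞 K) →* ℂˣ) {s : ℝ} (hs : 1 < s) :
    Summable fun I : (Ideal (𝓞 K))⁰ ↦ ((χ (ClassGroup.mk0 I) : ℂˣ) : ℂ) * ((nrm K s I : ℝ) : ℂ) := by
  refine Summable.of_norm ?_
  have : (fun I : (Ideal (𝓞 K))⁰ ↦ ‖((χ (ClassGroup.mk0 I) : ℂˣ) : ℂ) * ((nrm K s I : ℝ) : ℂ)‖) =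
      nrm K s := by
    funext I
    rw [norm_mul, norm_classChar, one_mul, Complex.norm_real, Real.norm_of_nonneg (nrm_nonneg s I)]
  rw [this]
  exact summable_nrm K hs

/-- The class `L`-series as a finite combination of partial zeta functions. -/
theorem classLSeries_eq_sum (χ : ClassGroup (𝓞 K) →* ℂˣ) {s : ℝ} (hs : 1 < s) :
    ∑' I : (Ideal (𝓞 K))⁰, ((χ (ClassGroup.mk0 I) : ℂˣ) : ℂ) * ((nrm K s I : ℝ) : ℂ) =
      ∑ c : ClassGroup (𝓞 K), ((χ c : ℂˣ) : ℂ) * ((partialZeta K s c : ℝ) : ℂ) := by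
  classical
  let e := Equiv.sigmaFiberEquiv (fun I : (Ideal (𝓞 K))⁰ ↦ ClassGroup.mk0 I)
  have hsum := summable_classChar_mul K χ hs
  have hsum' : Summable fun x : (Σ c : ClassGroup (𝓞 K),
      {I : (Ideal (𝓞 K))⁰ // ClassGroup.mk0 I = c}) ↦
      ((χ (ClassGroup.mk0 (e x)) : ℂˣ) : ℂ) * ((nrm K s (e x) : ℝ) : ℂ) :=
    (Equiv.summable_iff e).mpr hsum
  rw [← Equiv.tsum_eq e, hsum'.tsum_sigma, tsum_fintype]
  refine Finset.sum_congr rfl fun c _ ↦ ?_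
  have hc : ∀ I : {I : (Ideal (𝓞 K))⁰ // ClassGroup.mk0 I = c},
      ((χ (ClassGroup.mk0 (e ⟨c, I⟩)) : ℂˣ) : ℂ) * ((nrm K s (e ⟨c, I⟩) : ℝ) : ℂ) =
        ((χ c : ℂˣ) : ℂ) * (((absNorm (I.1 : Ideal (𝓞 K)) : ℝ) ^ (-s) : ℝ) : ℂ) := by
    intro I
    simp only [e, Equiv.sigmaFiberEquiv_apply, I.2]
    rfl
  simp_rw [hc]
  rw [tsum_mul_left, partialZeta, Complex.ofReal_tsum]

/-- **From partial zeta differences to class `L`-series** (assembly step of D1). -/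
theorem exists_bound_classLSeries_of_partialZeta
    (hZ : ∃ C : ℝ, ∀ s : ℝ, 1 < s → s ≤ 2 → ∀ c c' : ClassGroup (𝓞 K),
      |(∑' I : {I : (Ideal (𝓞 K))⁰ // ClassGroup.mk0 I = c},
          (absNorm (I.1 : Ideal (𝓞 K)) : ℝ) ^ (-s)) -
        (∑' I : {I : (Ideal (𝓞 K))⁰ // ClassGroup.mk0 I = c'},
          (absNorm (I.1 : Ideal (𝓞 K)) : ℝ) ^ (-s))| ≤ C)
    (χ : ClassGroup (𝓞 K) →* ℂˣ) (hχ : χ ≠ 1) :
    ∃ C : ℝ, ∀ s : ℝ, 1 < s → s ≤ 2 →
      ‖∑' I : (Ideal (𝓞 K))⁰, ((χ (ClassGroup.mk0 I) : ℂˣ) : ℂ) *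
        (((absNorm (I : Ideal (𝓞 K)) : ℝ) ^ (-s) : ℝ) : ℂ)‖ ≤ C := by
  classical
  obtain ⟨C, hC⟩ := hZ
  refine ⟨Fintype.card (ClassGroup (𝓞 K)) * C, fun s hs hs2 ↦ ?_⟩
  have h0 : ∑ c : ClassGroup (𝓞 K), ((χ c : ℂˣ) : ℂ) = 0 := by
    have hne : (Units.coeHom ℂ).comp χ ≠ 1 := by
      intro h
      apply hχ
      ext c
      have := congrArg (fun f : ClassGroup (𝓞 K) →* ℂ ↦ f c) h
      simpa using this
    simpa using sum_hom_units_eq_zero ((Units.coeHom ℂ).comp χ) hne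
  have h1 := classLSeries_eq_sum K χ hs
  have h2 : ∑ c : ClassGroup (𝓞 K), ((χ c : ℂˣ) : ℂ) * ((partialZeta K s c : ℝ) : ℂ) =
      ∑ c : ClassGroup (𝓞 K), ((χ c : ℂˣ) : ℂ) *
        (((partialZeta K s c - partialZeta K s 1 : ℝ)) : ℂ) := by
    have : ∑ c : ClassGroup (𝓞 K), ((χ c : ℂˣ) : ℂ) * ((partialZeta K s 1 : ℝ) : ℂ) = 0 := by
      rw [← Finset.sum_mul, h0, zero_mul]
    rw [← sub_zero (∑ c : ClassGroup (𝓞 K), ((χ c : ℂˣ) : ℂ) * ((partialZeta K s c : ℝ) : ℂ)),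
      ← this, ← Finset.sum_sub_distrib]
    refine Finset.sum_congr rfl fun c _ ↦ ?_
    push_cast; ring
  have h3 : (∑' I : (Ideal (𝓞 K))⁰, ((χ (ClassGroup.mk0 I) : ℂˣ) : ℂ) *
      (((absNorm (I : Ideal (𝓞 K)) : ℝ) ^ (-s) : ℝ) : ℂ)) =
      ∑ c : ClassGroup (𝓞 K), ((χ c : ℂˣ) : ℂ) *
        (((partialZeta K s c - partialZeta K s 1 : ℝ)) : ℂ) := by
    rw [← h2, ← h1]; rfl
  rw [h3]
  calc ‖∑ c : ClassGroup (𝓞 K), ((χ c : ℂˣ) : ℂ) *
        (((partialZeta K s c - partialZeta K s 1 : ℝ)) : ℂ)‖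
      ≤ ∑ c : ClassGroup (𝓞 K), ‖((χ c : ℂˣ) : ℂ) *
        (((partialZeta K s c - partialZeta K s 1 : ℝ)) : ℂ)‖ := norm_sum_le _ _
    _ ≤ ∑ _c : ClassGroup (𝓞 K), C := by
        refine Finset.sum_le_sum fun c _ ↦ ?_
        rw [norm_mul, norm_classChar, one_mul, Complex.norm_real, Real.norm_eq_abs]
        exact hC s hs hs2 c 1
    _ = Fintype.card (ClassGroup (𝓞 K)) * C := by
        rw [Finset.sum_const, Finset.card_univ, nsmul_eq_mul]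

end Fermat.Agent.S14.H32
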