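import Fermat.Agent.S14.H32.ClassLOfPartial

/-!
# S14 / package D1 (second route, coordinated by helper32): shared definitions

The smooth unit cut-off on the mixed space:
* `tent t = max 0 (1 - |t|)`;
* `logBasis K`: the real basis of `logSpace K` given by a `ℤ`-basis of the unit lattice;
* `psi K y = ∏ i, tent (coordinate i of y)` on `logSpace K` (an exact partition of unity for the
  unit lattice);
* `cutW K x = psi (logMap x)` on the mixed space (`0` where the norm vanishes);
* `cutF K s x = cutW K x * (norm x) ^ (-s)`;
* `cutSum K s J`: the sum of `cutF` over the nonzero elements of the ideal `J`.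
-/

namespace Fermat.Agent.S14.H32

open NumberField NumberField.InfinitePlace NumberField.mixedEmbedding NumberField.Units
  NumberField.Units.dirichletUnitTheorem nonZeroDivisors

variable (K : Type*) [Field K] [NumberField K]

/-- The tent function `max 0 (1 - |t|)`. -/
noncomputable def tent (t : ℝ) : ℝ := max 0 (1 - |t|)

open scoped Classical in
/-- The real basis of `logSpace K` coming from a `ℤ`-basis of the unit lattice. -/
noncomputable def logBasis : Module.Basis (Fin (rank K)) ℝ (logSpace K) :=
  (basisUnitLattice K).ofZLatticeBasis ℝ (unitLattice K)

open scoped Classical in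
theorem logBasis_apply (i : Fin (rank K)) :
    logBasis K i = logEmbedding K (Additive.ofMul (fundSystem K i)) := by
  rw [logBasis, Module.Basis.ofZLatticeBasis_apply, logEmbedding_fundSystem]

/-- The cut-off function on `logSpace K`: a product of tent functions of the coordinates. -/
noncomputable def psi (y : logSpace K) : ℝ := ∏ i, tent ((logBasis K).repr y i)

/-- The unit cut-off on the mixed space. -/
noncomputable def cutW (x : mixedSpace K) : ℝ :=
  if mixedEmbedding.norm x = 0 then 0 else psi K (logMap x)

/-- The weighted norm power `cutW x * (norm x) ^ (-s)`. -/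
noncomputable def cutF (s : ℝ) (x : mixedSpace K) : ℝ :=
  cutW K x * mixedEmbedding.norm x ^ (-s)

/-- The lattice sum of `cutF` over the nonzero elements of an ideal. -/
noncomputable def cutSum (s : ℝ) (J : Ideal (𝓞 K)) : ℝ :=
  ∑' α : {α : 𝓞 K // α ∈ J ∧ α ≠ 0}, cutF K s (mixedEmbedding K (α : 𝓞 K))

end Fermat.Agent.S14.H32
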