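import Fermat.Agent.S14.H32.CutoffDefs

/-!
# S14 / package D1, Q2 (helper32): Lipschitz estimate with decay for the smooth unit cut-off

For a Lipschitz function `ψ` of bounded support on `logSpace K` with values in `[0, 1]`, the
function `genF ψ s x = ψ (logMap x) * (norm x) ^ (-s)` on the mixed space satisfies
`|genF ψ s x - genF ψ s y| ≤ C ‖x - y‖ T ^ (-n - 1)` whenever `‖x‖, ‖y‖ ≥ T ≥ 1`, uniformly for
`s ∈ [1, 2]` (`exists_lipschitz_genF`).  Specialised to `psi K` this is `exists_lipschitz_cutF`.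
-/

namespace Fermat.Agent.S14.H32

open NumberField NumberField.InfinitePlace NumberField.mixedEmbedding NumberField.Units
  NumberField.Units.dirichletUnitTheorem nonZeroDivisors

variable {K : Type*} [Field K] [NumberField K]

open scoped Classical in
theorem normAtPlace_le_norm (w : InfinitePlace K) (x : mixedSpace K) : normAtPlace w x ≤ ‖x‖ := by
  rw [norm_eq_sup'_normAtPlace]
  exact Finset.le_sup' (fun w ↦ normAtPlace w x) (Finset.mem_univ w)

open scoped Classical in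
theorem exists_normAtPlace_eq_norm (x : mixedSpace K) : ∃ w : InfinitePlace K, normAtPlace w x = ‖x‖ := by
  rw [norm_eq_sup'_normAtPlace]
  obtain ⟨w, -, hw⟩ := Finset.exists_mem_eq_sup' Finset.univ_nonempty (fun w ↦ normAtPlace w x)
  exact ⟨w, hw.symm⟩

theorem log_norm_eq_sum (x : mixedSpace K) (hx : mixedEmbedding.norm x ≠ 0) :
    Real.log (mixedEmbedding.norm x) = ∑ w : InfinitePlace K, (mult w : ℝ) * Real.log (normAtPlace w x) := by
  rw [mixedEmbedding.norm_apply, Real.log_prod]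
  · refine Finset.sum_congr rfl fun w _ ↦ ?_
    rw [Real.log_pow]
  · intro w _
    exact pow_ne_zero _ (mixedEmbedding.norm_ne_zero_iff.mp hx w)

theorem mult_le_two' (w : InfinitePlace K) : (mult w : ℝ) ≤ 2 := by
  unfold mult; split_ifs <;> norm_num

theorem sum_mult_real : ∑ w : InfinitePlace K, (mult w : ℝ) = (Module.finrank ℚ K : ℝ) := by
  rw [← Nat.cast_sum, InfinitePlace.sum_mult_eq]

theorem finrank_pos_real : (0 : ℝ) < (Module.finrank ℚ K : ℝ) := Nat.cast_pos.mpr Module.finrank_pos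

open scoped Classical in
/-- If `logMap x` is bounded by `B`, all the `log (normAtPlace w x)` are within `R * B` of their
weighted mean. -/
theorem abs_log_normAtPlace_sub_le {x : mixedSpace K} (hx : mixedEmbedding.norm x ≠ 0) {B : ℝ}
    (hB : 0 ≤ B) (h : ‖logMap x‖ ≤ B) (w : InfinitePlace K) :
    |Real.log (normAtPlace w x) - Real.log (mixedEmbedding.norm x) * (Module.finrank ℚ K : ℝ)⁻¹| ≤
      Fintype.card (InfinitePlace K) * B := by
  set lam := Real.log (mixedEmbedding.norm x) * (Module.finrank ℚ K : ℝ)⁻¹ with hlam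
  set d : InfinitePlace K → ℝ := fun w ↦ (mult w : ℝ) * (Real.log (normAtPlace w x) - lam) with hd
  have hsum : ∑ w : InfinitePlace K, d w = 0 := by
    simp only [hd, mul_sub]
    rw [Finset.sum_sub_distrib, ← Finset.sum_mul, sum_mult_real, ← log_norm_eq_sum x hx, hlam]
    field_simp [finrank_pos_real.ne']
    ring
  have hne : ∀ w : InfinitePlace K, w ≠ w₀ → |d w| ≤ B := by
    intro w hw
    have h1 := norm_le_pi_norm (logMap x) ⟨w, hw⟩
    rw [Real.norm_eq_abs, logMap_apply] at h1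
    exact h1.trans h
  have hR : (1 : ℝ) ≤ Fintype.card (InfinitePlace K) := by
    exact_mod_cast Fintype.card_pos
  have hw0 : |d w₀| ≤ Fintype.card (InfinitePlace K) * B := by
    have h2 : d w₀ = -∑ w ∈ Finset.univ.erase (w₀ : InfinitePlace K), d w := by
      have := Finset.add_sum_erase Finset.univ d (Finset.mem_univ (w₀ : InfinitePlace K))
      linarith
    rw [h2, abs_neg]
    refine (Finset.abs_sum_le_sum_abs _ _).trans ?_
    have h3 : ∑ w ∈ Finset.univ.erase (w₀ : InfinitePlace K), |d w| ≤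
        ∑ _w ∈ Finset.univ.erase (w₀ : InfinitePlace K), B :=
      Finset.sum_le_sum fun w hw ↦ hne w (Finset.ne_of_mem_erase hw)
    refine h3.trans ?_
    rw [Finset.sum_const, nsmul_eq_mul]
    refine mul_le_mul_of_nonneg_right ?_ hB
    exact_mod_cast Finset.card_le_univ _
  have hall : |d w| ≤ Fintype.card (InfinitePlace K) * B := by
    by_cases hw : w = w₀
    · rw [hw]; exact hw0
    · exact (hne w hw).trans (le_mul_of_one_le_left hB hR)
  have hm : (1 : ℝ) ≤ (mult w : ℝ) := one_le_mult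
  have : |Real.log (normAtPlace w x) - lam| ≤ |d w| := by
    simp only [hd, abs_mul]
    rw [abs_of_nonneg (by linarith : (0 : ℝ) ≤ (mult w : ℝ))]
    exact le_mul_of_one_le_left (abs_nonneg _) hm
  exact this.trans hall

open scoped Classical in
/-- Bounded `logMap` forces all coordinates to be comparable to the sup norm. -/
theorem mul_norm_le_normAtPlace {x : mixedSpace K} (hx : mixedEmbedding.norm x ≠ 0) {B : ℝ}
    (hB : 0 ≤ B) (h : ‖logMap x‖ ≤ B) (w : InfinitePlace K) :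
    Real.exp (-(2 * (Fintype.card (InfinitePlace K) * B))) * ‖x‖ ≤ normAtPlace w x := by
  obtain ⟨w', hw'⟩ := exists_normAtPlace_eq_norm x
  have h1 := abs_le.mp (abs_log_normAtPlace_sub_le hx hB h w)
  have h2 := abs_le.mp (abs_log_normAtPlace_sub_le hx hB h w')
  have hpos : ∀ v : InfinitePlace K, 0 < normAtPlace v x := fun v ↦
    lt_of_le_of_ne (normAtPlace_nonneg v x) (Ne.symm (mixedEmbedding.norm_ne_zero_iff.mp hx v))
  have e1 : normAtPlace w x = Real.exp (Real.log (normAtPlace w x)) := (Real.exp_log (hpos w)).symm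
  have e2 : ‖x‖ = Real.exp (Real.log (normAtPlace w' x)) := by rw [Real.exp_log (hpos w'), hw']
  rw [e1, e2, ← Real.exp_add]
  apply Real.exp_le_exp.mpr
  linarith [h1.1, h2.2]

open scoped Classical in
theorem abs_normAtPlace_sub_le (w : InfinitePlace K) (x y : mixedSpace K) :
    |normAtPlace w x - normAtPlace w y| ≤ ‖x - y‖ := by
  rw [abs_sub_le_iff]
  constructor
  · have h := normAtPlace_add_le w (x - y) y
    rw [sub_add_cancel] at h
    linarith [normAtPlace_le_norm w (x - y)]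
  · have h := normAtPlace_add_le w (y - x) x
    rw [sub_add_cancel] at h
    have h2 := normAtPlace_le_norm w (y - x)
    rw [norm_sub_rev] at h2
    linarith

theorem abs_log_sub_log_le {a b c : ℝ} (hc : 0 < c) (ha : c ≤ a) (hb : c ≤ b) :
    |Real.log a - Real.log b| ≤ |a - b| / c := by
  have ha0 : 0 < a := lt_of_lt_of_le hc ha
  have hb0 : 0 < b := lt_of_lt_of_le hc hb
  have key : ∀ {u v : ℝ}, 0 < u → c ≤ v → Real.log u - Real.log v ≤ |u - v| / c := by
    intro u v hu hv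
    have hv0 : 0 < v := lt_of_lt_of_le hc hv
    rw [← Real.log_div hu.ne' hv0.ne']
    have h1 := Real.log_le_sub_one_of_pos (div_pos hu hv0)
    have h2 : u / v - 1 = (u - v) / v := by field_simp
    rw [h2] at h1
    refine h1.trans ?_
    by_cases huv : 0 ≤ u - v
    · rw [abs_of_nonneg huv]
      exact div_le_div_of_nonneg_left huv hc hv
    · have : (u - v) / v ≤ 0 := div_nonpos_of_nonpos_of_nonneg (by linarith) hv0.le
      exact this.trans (div_nonneg (abs_nonneg _) hc.le)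
  rw [abs_sub_le_iff]
  exact ⟨key ha0 hb, by rw [abs_sub_comm]; exact key hb0 ha⟩

theorem norm_ne_zero_of_le {x : mixedSpace K} {c : ℝ} (hc : 0 < c)
    (hx : ∀ w, c ≤ normAtPlace w x) : mixedEmbedding.norm x ≠ 0 :=
  mixedEmbedding.norm_ne_zero_iff.mpr fun w ↦ (lt_of_lt_of_le hc (hx w)).ne'

open scoped Classical in
theorem abs_log_normAtPlace_sub_log_le {x y : mixedSpace K} {c : ℝ} (hc : 0 < c)
    (hx : ∀ w, c ≤ normAtPlace w x) (hy : ∀ w, c ≤ normAtPlace w y) (w : InfinitePlace K) :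
    |Real.log (normAtPlace w x) - Real.log (normAtPlace w y)| ≤ ‖x - y‖ / c :=
  (abs_log_sub_log_le hc (hx w) (hy w)).trans
    (div_le_div_of_nonneg_right (abs_normAtPlace_sub_le w x y) hc.le)

open scoped Classical in
theorem abs_log_norm_sub_log_norm_le {x y : mixedSpace K} {c : ℝ} (hc : 0 < c)
    (hx : ∀ w, c ≤ normAtPlace w x) (hy : ∀ w, c ≤ normAtPlace w y) :
    |Real.log (mixedEmbedding.norm x) - Real.log (mixedEmbedding.norm y)| ≤
      (Module.finrank ℚ K : ℝ) * (‖x - y‖ / c) := by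
  rw [log_norm_eq_sum x (norm_ne_zero_of_le hc hx), log_norm_eq_sum y (norm_ne_zero_of_le hc hy),
    ← Finset.sum_sub_distrib]
  refine (Finset.abs_sum_le_sum_abs _ _).trans ?_
  rw [← sum_mult_real, Finset.sum_mul]
  refine Finset.sum_le_sum fun w _ ↦ ?_
  rw [← mul_sub, abs_mul, abs_of_nonneg (Nat.cast_nonneg _)]
  exact mul_le_mul_of_nonneg_left (abs_log_normAtPlace_sub_log_le hc hx hy w) (Nat.cast_nonneg _)

open scoped Classical in
/-- `logMap` is Lipschitz where all coordinates are bounded below. -/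
theorem norm_logMap_sub_le {x y : mixedSpace K} {c : ℝ} (hc : 0 < c)
    (hx : ∀ w, c ≤ normAtPlace w x) (hy : ∀ w, c ≤ normAtPlace w y) :
    ‖logMap x - logMap y‖ ≤ 4 * (‖x - y‖ / c) := by
  have hδ : 0 ≤ ‖x - y‖ / c := div_nonneg (norm_nonneg _) hc.le
  rw [pi_norm_le_iff_of_nonneg (by positivity)]
  intro w
  rw [Pi.sub_apply, logMap_apply, logMap_apply, Real.norm_eq_abs, ← mul_sub, abs_mul,
    abs_of_nonneg (Nat.cast_nonneg _)]
  have h1 := abs_log_normAtPlace_sub_log_le hc hx hy w.1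
  have h2 := abs_log_norm_sub_log_norm_le hc hx hy
  have hn := finrank_pos_real (K := K)
  have h3 : |(Real.log (mixedEmbedding.norm x) - Real.log (mixedEmbedding.norm y)) *
      (Module.finrank ℚ K : ℝ)⁻¹| ≤ ‖x - y‖ / c := by
    rw [abs_mul, abs_of_pos (inv_pos.mpr hn), ← div_eq_mul_inv, div_le_iff₀ hn]
    linarith
  have h4 : |Real.log (normAtPlace w.1 x) - Real.log (mixedEmbedding.norm x) *
      (Module.finrank ℚ K : ℝ)⁻¹ - (Real.log (normAtPlace w.1 y) -
        Real.log (mixedEmbedding.norm y) * (Module.finrank ℚ K : ℝ)⁻¹)| ≤ 2 * (‖x - y‖ / c) := by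
    have : Real.log (normAtPlace w.1 x) - Real.log (mixedEmbedding.norm x) *
      (Module.finrank ℚ K : ℝ)⁻¹ - (Real.log (normAtPlace w.1 y) -
        Real.log (mixedEmbedding.norm y) * (Module.finrank ℚ K : ℝ)⁻¹) =
        (Real.log (normAtPlace w.1 x) - Real.log (normAtPlace w.1 y)) -
        (Real.log (mixedEmbedding.norm x) - Real.log (mixedEmbedding.norm y)) *
          (Module.finrank ℚ K : ℝ)⁻¹ := by ring
    rw [this]
    exact (abs_sub _ _).trans (by linarith)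
  calc (mult w.1 : ℝ) * _ ≤ 2 * (2 * (‖x - y‖ / c)) :=
        mul_le_mul (mult_le_two' w.1) h4 (abs_nonneg _) (by norm_num)
    _ = 4 * (‖x - y‖ / c) := by ring

theorem abs_exp_sub_exp_le (a b : ℝ) :
    |Real.exp a - Real.exp b| ≤ |a - b| * max (Real.exp a) (Real.exp b) := by
  have key : ∀ u v : ℝ, u ≤ v → |Real.exp u - Real.exp v| ≤ |u - v| * Real.exp v := by
    intro u v huv
    have h1 : Real.exp u ≤ Real.exp v := Real.exp_le_exp.mpr huv
    rw [abs_of_nonpos (by linarith), abs_of_nonpos (by linarith)]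
    have h2 := Real.add_one_le_exp (u - v)
    have h3 : Real.exp u = Real.exp v * Real.exp (u - v) := by
      rw [← Real.exp_add]; congr 1; ring
    rw [h3]
    nlinarith [Real.exp_pos v]
  rcases le_total a b with h | h
  · exact (key a b h).trans (mul_le_mul_of_nonneg_left (le_max_right _ _) (abs_nonneg _))
  · rw [abs_sub_comm, abs_sub_comm a b]
    exact (key b a h).trans (mul_le_mul_of_nonneg_left (le_max_left _ _) (abs_nonneg _))

theorem pow_finrank_le_norm {x : mixedSpace K} {c : ℝ} (hc : 0 < c)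
    (hx : ∀ w, c ≤ normAtPlace w x) : c ^ Module.finrank ℚ K ≤ mixedEmbedding.norm x := by
  rw [mixedEmbedding.norm_apply, ← InfinitePlace.sum_mult_eq, ← Finset.prod_pow_eq_pow_sum]
  exact Finset.prod_le_prod (fun w _ ↦ by positivity)
    (fun w _ ↦ pow_le_pow_left₀ hc.le (hx w) _)

theorem norm_rpow_neg_le {x : mixedSpace K} {c : ℝ} (hc : 0 < c)
    (hx : ∀ w, c ≤ normAtPlace w x) {s : ℝ} (hs : 0 ≤ s) :
    mixedEmbedding.norm x ^ (-s) ≤ (c ^ Module.finrank ℚ K) ^ (-s) :=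
  Real.rpow_le_rpow_of_nonpos (by positivity) (pow_finrank_le_norm hc hx) (by linarith)

open scoped Classical in
theorem abs_norm_rpow_sub_le {x y : mixedSpace K} {c : ℝ} (hc : 0 < c)
    (hx : ∀ w, c ≤ normAtPlace w x) (hy : ∀ w, c ≤ normAtPlace w y) {s : ℝ} (hs : 0 ≤ s)
    (hs2 : s ≤ 2) :
    |mixedEmbedding.norm x ^ (-s) - mixedEmbedding.norm y ^ (-s)| ≤
      2 * (Module.finrank ℚ K : ℝ) * (‖x - y‖ / c) * (c ^ Module.finrank ℚ K) ^ (-s) := by
  have hNx : 0 < mixedEmbedding.norm x :=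
    lt_of_le_of_ne (mixedEmbedding.norm_nonneg x) (Ne.symm (norm_ne_zero_of_le hc hx))
  have hNy : 0 < mixedEmbedding.norm y :=
    lt_of_le_of_ne (mixedEmbedding.norm_nonneg y) (Ne.symm (norm_ne_zero_of_le hc hy))
  have hδ : 0 ≤ ‖x - y‖ / c := div_nonneg (norm_nonneg _) hc.le
  rw [Real.rpow_def_of_pos hNx, Real.rpow_def_of_pos hNy]
  refine (abs_exp_sub_exp_le _ _).trans ?_
  have h1 : |Real.log (mixedEmbedding.norm x) * -s - Real.log (mixedEmbedding.norm y) * -s| ≤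
      2 * (Module.finrank ℚ K : ℝ) * (‖x - y‖ / c) := by
    rw [← sub_mul, abs_mul, abs_neg, abs_of_nonneg hs]
    have h2 := abs_log_norm_sub_log_norm_le hc hx hy
    have hn := finrank_pos_real (K := K)
    calc |Real.log (mixedEmbedding.norm x) - Real.log (mixedEmbedding.norm y)| * s
        ≤ ((Module.finrank ℚ K : ℝ) * (‖x - y‖ / c)) * 2 :=
          mul_le_mul h2 hs2 hs (by positivity)
      _ = 2 * (Module.finrank ℚ K : ℝ) * (‖x - y‖ / c) := by ring
  have h3 : max (Real.exp (Real.log (mixedEmbedding.norm x) * -s))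
      (Real.exp (Real.log (mixedEmbedding.norm y) * -s)) ≤ (c ^ Module.finrank ℚ K) ^ (-s) := by
    rw [← Real.rpow_def_of_pos hNx, ← Real.rpow_def_of_pos hNy]
    exact max_le (norm_rpow_neg_le hc hx hs) (norm_rpow_neg_le hc hy hs)
  exact mul_le_mul h1 h3 (le_max_of_le_left (Real.exp_pos _).le) (by positivity)

section gen

variable (ψ : logSpace K → ℝ)

/-- The cut-off on the mixed space attached to a function `ψ` on `logSpace K`. -/
noncomputable def genW (x : mixedSpace K) : ℝ :=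
  if mixedEmbedding.norm x = 0 then 0 else ψ (logMap x)

/-- `genW ψ x * (norm x) ^ (-s)`. -/
noncomputable def genF (s : ℝ) (x : mixedSpace K) : ℝ :=
  genW ψ x * mixedEmbedding.norm x ^ (-s)

theorem genW_of_norm_ne_zero {x : mixedSpace K} (hx : mixedEmbedding.norm x ≠ 0) :
    genW ψ x = ψ (logMap x) := by
  rw [genW, if_neg hx]

variable {ψ}

open scoped Classical in
theorem abs_genF_sub_le_of_region (h1 : ∀ y, ψ y ≤ 1) (h0 : ∀ y, 0 ≤ ψ y) {L : ℝ} (hL0 : 0 ≤ L)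
    (hL : ∀ y y', |ψ y - ψ y'| ≤ L * ‖y - y'‖) {x y : mixedSpace K} {c : ℝ} (hc : 0 < c)
    (hx : ∀ w, c ≤ normAtPlace w x) (hy : ∀ w, c ≤ normAtPlace w y) {s : ℝ} (hs : 0 ≤ s)
    (hs2 : s ≤ 2) :
    |genF ψ s x - genF ψ s y| ≤
      (4 * L + 2 * (Module.finrank ℚ K : ℝ)) * (‖x - y‖ / c) *
        (c ^ Module.finrank ℚ K) ^ (-s) := by
  have hδ : 0 ≤ ‖x - y‖ / c := div_nonneg (norm_nonneg _) hc.le
  have hNx := norm_ne_zero_of_le hc hx
  have hNy := norm_ne_zero_of_le hc hy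
  rw [genF, genF, genW_of_norm_ne_zero ψ hNx, genW_of_norm_ne_zero ψ hNy]
  set M := (c ^ Module.finrank ℚ K) ^ (-s) with hM
  have hM0 : 0 ≤ M := Real.rpow_nonneg (by positivity) _
  have e : ψ (logMap x) * mixedEmbedding.norm x ^ (-s) -
      ψ (logMap y) * mixedEmbedding.norm y ^ (-s) =
      (ψ (logMap x) - ψ (logMap y)) * mixedEmbedding.norm x ^ (-s) +
      ψ (logMap y) * (mixedEmbedding.norm x ^ (-s) - mixedEmbedding.norm y ^ (-s)) := by ring
  rw [e]
  refine (abs_add_le _ _).trans ?_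
  rw [abs_mul, abs_mul]
  have a1 : |ψ (logMap x) - ψ (logMap y)| ≤ L * (4 * (‖x - y‖ / c)) :=
    (hL _ _).trans (mul_le_mul_of_nonneg_left (norm_logMap_sub_le hc hx hy) hL0)
  have a2 : |mixedEmbedding.norm x ^ (-s)| ≤ M := by
    rw [abs_of_nonneg (Real.rpow_nonneg (mixedEmbedding.norm_nonneg x) _)]
    exact norm_rpow_neg_le hc hx hs
  have a3 : |ψ (logMap y)| ≤ 1 := by
    rw [abs_of_nonneg (h0 _)]; exact h1 _
  have a4 := abs_norm_rpow_sub_le hc hx hy hs hs2
  have b1 : |ψ (logMap x) - ψ (logMap y)| * |mixedEmbedding.norm x ^ (-s)| ≤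
      L * (4 * (‖x - y‖ / c)) * M := mul_le_mul a1 a2 (abs_nonneg _) (by positivity)
  have b2 : |ψ (logMap y)| * |mixedEmbedding.norm x ^ (-s) - mixedEmbedding.norm y ^ (-s)| ≤
      1 * (2 * (Module.finrank ℚ K : ℝ) * (‖x - y‖ / c) * M) :=
    mul_le_mul a3 a4 (abs_nonneg _) (by norm_num)
  calc _ ≤ L * (4 * (‖x - y‖ / c)) * M + 1 * (2 * (Module.finrank ℚ K : ℝ) * (‖x - y‖ / c) * M) :=
        add_le_add b1 b2
    _ = _ := by ring

theorem rpow_aux {a T : ℝ} (ha : 0 < a) (ha1 : a ≤ 1) (hT : 1 ≤ T) (n : ℕ) {s : ℝ} (hs : 1 ≤ s)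
    (hs2 : s ≤ 2) : ((a * T) ^ n) ^ (-s) ≤ (a ^ n) ^ (-(2 : ℝ)) * (T ^ n)⁻¹ := by
  have hT0 : 0 < T := by linarith
  have han : 0 < a ^ n := pow_pos ha n
  have han1 : a ^ n ≤ 1 := pow_le_one₀ ha.le ha1
  have hTn : 1 ≤ T ^ n := one_le_pow₀ hT
  rw [mul_pow, Real.mul_rpow han.le (by positivity)]
  refine mul_le_mul ?_ ?_ (Real.rpow_nonneg (by positivity) _) (Real.rpow_nonneg han.le _)
  · exact Real.rpow_le_rpow_of_exponent_ge han han1 (by linarith)
  · rw [← Real.rpow_neg_one]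
    exact Real.rpow_le_rpow_of_exponent_le hTn (by linarith)

theorem rpow_neg_finrank_sub_one {T : ℝ} (hT : 0 < T) (n : ℕ) :
    T ^ (-(n : ℝ) - 1) = (T ^ n)⁻¹ * T⁻¹ := by
  rw [Real.rpow_sub hT, Real.rpow_neg hT.le, Real.rpow_natCast, Real.rpow_one, div_eq_mul_inv]

open scoped Classical in
theorem genF_bound (h1 : ∀ y, ψ y ≤ 1) (h0 : ∀ y, 0 ≤ ψ y) {B : ℝ} (hB0 : 0 ≤ B)
    (hB : ∀ y, ψ y ≠ 0 → ‖y‖ ≤ B) {s : ℝ} (hs : 0 ≤ s) {T : ℝ} (hT : 0 < T) (z : mixedSpace K)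
    (hz : T ≤ ‖z‖) :
    0 ≤ genF ψ s z ∧ genF ψ s z ≤
      ((Real.exp (-(2 * (Fintype.card (InfinitePlace K) * B))) * T) ^ Module.finrank ℚ K) ^ (-s) := by
  set κ := Real.exp (-(2 * (Fintype.card (InfinitePlace K) * B))) with hκ
  have hκ0 : 0 < κ := Real.exp_pos _
  by_cases hN : mixedEmbedding.norm z = 0
  · have : genF ψ s z = 0 := by rw [genF, genW, if_pos hN, zero_mul]
    rw [this]
    exact ⟨le_rfl, Real.rpow_nonneg (by positivity) _⟩
  · rw [genF, genW_of_norm_ne_zero ψ hN]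
    refine ⟨mul_nonneg (h0 _) (Real.rpow_nonneg (mixedEmbedding.norm_nonneg z) _), ?_⟩
    by_cases hψ : ψ (logMap z) = 0
    · rw [hψ, zero_mul]; exact Real.rpow_nonneg (by positivity) _
    · have hreg : ∀ w, κ * T ≤ normAtPlace w z := fun w ↦
        (mul_le_mul_of_nonneg_left hz hκ0.le).trans (mul_norm_le_normAtPlace hN hB0 (hB _ hψ) w)
      calc ψ (logMap z) * mixedEmbedding.norm z ^ (-s)
          ≤ 1 * mixedEmbedding.norm z ^ (-s) :=
            mul_le_mul_of_nonneg_right (h1 _) (Real.rpow_nonneg (mixedEmbedding.norm_nonneg z) _)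
        _ = mixedEmbedding.norm z ^ (-s) := one_mul _
        _ ≤ _ := norm_rpow_neg_le (by positivity) hreg hs

open scoped Classical in
/-- **Lipschitz estimate with decay** for `genF ψ s`, uniformly for `s ∈ [1, 2]`. -/
theorem exists_lipschitz_genF (h1 : ∀ y, ψ y ≤ 1) (h0 : ∀ y, 0 ≤ ψ y) {L : ℝ} (hL0 : 0 ≤ L)
    (hL : ∀ y y', |ψ y - ψ y'| ≤ L * ‖y - y'‖) {B : ℝ} (hB0 : 0 ≤ B)
    (hB : ∀ y, ψ y ≠ 0 → ‖y‖ ≤ B) :
    ∃ C : ℝ, 0 ≤ C ∧ ∀ s : ℝ, 1 ≤ s → s ≤ 2 → ∀ T : ℝ, 1 ≤ T → ∀ x y : mixedSpace K,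
      T ≤ ‖x‖ → T ≤ ‖y‖ →
      |genF ψ s x - genF ψ s y| ≤ C * ‖x - y‖ * T ^ (-(Module.finrank ℚ K : ℝ) - 1) := by
  set κ := Real.exp (-(2 * (Fintype.card (InfinitePlace K) * B))) with hκ
  have hκ0 : 0 < κ := Real.exp_pos _
  have hκ1 : κ ≤ 1 := by
    rw [hκ, Real.exp_le_one_iff]
    have : (0 : ℝ) ≤ Fintype.card (InfinitePlace K) * B := by positivity
    linarith
  set n := Module.finrank ℚ K with hn
  set C₁ := (4 * L + 2 * (n : ℝ)) * (2 / κ) * ((κ / 2) ^ n) ^ (-(2 : ℝ)) with hC₁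
  set C₂ := 4 * κ⁻¹ * (κ ^ n) ^ (-(2 : ℝ)) with hC₂
  have hC₁0 : 0 ≤ C₁ := by
    have : 0 ≤ ((κ / 2) ^ n) ^ (-(2 : ℝ)) := Real.rpow_nonneg (by positivity) _
    positivity
  have hC₂0 : 0 ≤ C₂ := by
    have : 0 ≤ (κ ^ n) ^ (-(2 : ℝ)) := Real.rpow_nonneg (by positivity) _
    positivity
  refine ⟨C₁ + C₂, by positivity, ?_⟩
  -- one-sided statement
  have key : ∀ s : ℝ, 1 ≤ s → s ≤ 2 → ∀ T : ℝ, 1 ≤ T → ∀ x y : mixedSpace K,
      T ≤ ‖x‖ → T ≤ ‖y‖ → genW ψ x ≠ 0 →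
      |genF ψ s x - genF ψ s y| ≤ (C₁ + C₂) * ‖x - y‖ * ((T ^ n)⁻¹ * T⁻¹) := by
    intro s hs hs2 T hT x y hx hy hW
    have hT0 : 0 < T := by linarith
    have hs0 : 0 ≤ s := by linarith
    have hTn : 0 < (T ^ n)⁻¹ * T⁻¹ := by positivity
    have hNx : mixedEmbedding.norm x ≠ 0 := by
      intro h; apply hW; rw [genW, if_pos h]
    have hψx : ψ (logMap x) ≠ 0 := by
      rwa [genW_of_norm_ne_zero ψ hNx] at hW
    have hregx : ∀ w, κ * T ≤ normAtPlace w x := fun w ↦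
      (mul_le_mul_of_nonneg_left hx hκ0.le).trans (mul_norm_le_normAtPlace hNx hB0 (hB _ hψx) w)
    by_cases hclose : ‖x - y‖ ≤ κ * T / 2
    · -- both points in the region `c = κ T / 2`
      have hc : 0 < κ / 2 * T := by positivity
      have hx' : ∀ w, κ / 2 * T ≤ normAtPlace w x := fun w ↦ by
        have := hregx w; nlinarith
      have hy' : ∀ w, κ / 2 * T ≤ normAtPlace w y := fun w ↦ by
        have h2 := abs_le.mp (abs_normAtPlace_sub_le w x y)
        have := hregx w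
        linarith [h2.2]
      have h3 := abs_genF_sub_le_of_region h1 h0 hL0 hL hc hx' hy' hs0 hs2
      have h4 := rpow_aux (by positivity : (0 : ℝ) < κ / 2) (by linarith) hT n hs hs2
      have h5 : ‖x - y‖ / (κ / 2 * T) = (2 / κ) * ‖x - y‖ * T⁻¹ := by
        field_simp
      calc |genF ψ s x - genF ψ s y|
          ≤ (4 * L + 2 * (n : ℝ)) * (‖x - y‖ / (κ / 2 * T)) * ((κ / 2 * T) ^ n) ^ (-s) := h3
        _ ≤ (4 * L + 2 * (n : ℝ)) * (‖x - y‖ / (κ / 2 * T)) *
            (((κ / 2) ^ n) ^ (-(2 : ℝ)) * (T ^ n)⁻¹) := by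
            refine mul_le_mul_of_nonneg_left h4 ?_
            have : 0 ≤ ‖x - y‖ / (κ / 2 * T) := div_nonneg (norm_nonneg _) hc.le
            positivity
        _ = C₁ * ‖x - y‖ * ((T ^ n)⁻¹ * T⁻¹) := by rw [h5, hC₁]; ring
        _ ≤ (C₁ + C₂) * ‖x - y‖ * ((T ^ n)⁻¹ * T⁻¹) := by
            refine mul_le_mul_of_nonneg_right ?_ hTn.le
            exact mul_le_mul_of_nonneg_right (by linarith) (norm_nonneg _)
    · -- far apart: trivial bound
      rw [not_le] at hclose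
      have bx := genF_bound h1 h0 hB0 hB hs0 hT0 x hx
      have by' := genF_bound h1 h0 hB0 hB hs0 hT0 y hy
      have h4 := rpow_aux hκ0 hκ1 hT n hs hs2
      have h6 : |genF ψ s x - genF ψ s y| ≤ 2 * ((κ ^ n) ^ (-(2 : ℝ)) * (T ^ n)⁻¹) := by
        rw [abs_sub_le_iff]
        constructor <;> linarith [bx.1, bx.2, by'.1, by'.2]
      have h7 : 1 ≤ 2 * ‖x - y‖ * κ⁻¹ * T⁻¹ := by
        rw [show 2 * ‖x - y‖ * κ⁻¹ * T⁻¹ = (2 * ‖x - y‖) / (κ * T) by field_simp,
          le_div_iff₀ (by positivity)]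
        linarith
      have h8 : 0 ≤ (κ ^ n) ^ (-(2 : ℝ)) * (T ^ n)⁻¹ := by
        have : 0 ≤ (κ ^ n) ^ (-(2 : ℝ)) := Real.rpow_nonneg (by positivity) _
        positivity
      calc |genF ψ s x - genF ψ s y| ≤ 2 * ((κ ^ n) ^ (-(2 : ℝ)) * (T ^ n)⁻¹) := h6
        _ ≤ 2 * ((κ ^ n) ^ (-(2 : ℝ)) * (T ^ n)⁻¹) * (2 * ‖x - y‖ * κ⁻¹ * T⁻¹) :=
            le_mul_of_one_le_right (by positivity) h7
        _ = C₂ * ‖x - y‖ * ((T ^ n)⁻¹ * T⁻¹) := by rw [hC₂]; ring
        _ ≤ (C₁ + C₂) * ‖x - y‖ * ((T ^ n)⁻¹ * T⁻¹) := by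
            refine mul_le_mul_of_nonneg_right ?_ hTn.le
            exact mul_le_mul_of_nonneg_right (by linarith) (norm_nonneg _)
  intro s hs hs2 T hT x y hx hy
  have hT0 : 0 < T := by linarith
  rw [rpow_neg_finrank_sub_one hT0]
  by_cases hWx : genW ψ x = 0
  · by_cases hWy : genW ψ y = 0
    · have : genF ψ s x - genF ψ s y = 0 := by
        rw [genF, genF, hWx, hWy]; ring
      rw [this, abs_zero]
      positivity
    · have := key s hs hs2 T hT y x hy hx hWy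
      rwa [abs_sub_comm, norm_sub_rev] at this
  · exact key s hs hs2 T hT x y hx hy hWx

end gen

section tent

theorem tent_nonneg (t : ℝ) : 0 ≤ tent t := le_max_left _ _

theorem tent_le_one (t : ℝ) : tent t ≤ 1 := by
  unfold tent
  exact max_le zero_le_one (by linarith [abs_nonneg t])

theorem abs_lt_one_of_tent_ne_zero {t : ℝ} (h : tent t ≠ 0) : |t| < 1 := by
  by_contra hcon
  apply h
  unfold tent
  exact max_eq_left (by linarith)

theorem abs_tent_sub_le (t t' : ℝ) : |tent t - tent t'| ≤ |t - t'| := by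
  unfold tent
  have h1 : |max 0 (1 - |t|) - max 0 (1 - |t'|)| ≤ |(1 - |t|) - (1 - |t'|)| := by
    rw [max_comm 0 (1 - |t|), max_comm 0 (1 - |t'|)]
    exact abs_max_sub_max_le_abs _ _ _
  refine h1.trans ?_
  have : (1 - |t|) - (1 - |t'|) = |t'| - |t| := by ring
  rw [this]
  exact (abs_abs_sub_abs_le_abs_sub t' t).trans (by rw [abs_sub_comm])

theorem abs_prod_sub_prod_le_sum {ι : Type*} (S : Finset ι) (a b : ι → ℝ)
    (ha0 : ∀ i ∈ S, 0 ≤ a i) (ha1 : ∀ i ∈ S, a i ≤ 1) (hb0 : ∀ i ∈ S, 0 ≤ b i)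
    (hb1 : ∀ i ∈ S, b i ≤ 1) :
    |∏ i ∈ S, a i - ∏ i ∈ S, b i| ≤ ∑ i ∈ S, |a i - b i| := by
  classical
  induction S using Finset.induction_on with
  | empty => simp
  | insert j S hj ih =>
    rw [Finset.prod_insert hj, Finset.prod_insert hj, Finset.sum_insert hj]
    have ih' := ih (fun i hi ↦ ha0 i (Finset.mem_insert_of_mem hi))
      (fun i hi ↦ ha1 i (Finset.mem_insert_of_mem hi))
      (fun i hi ↦ hb0 i (Finset.mem_insert_of_mem hi))
      (fun i hi ↦ hb1 i (Finset.mem_insert_of_mem hi))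
    have hP0 : 0 ≤ ∏ i ∈ S, a i :=
      Finset.prod_nonneg fun i hi ↦ ha0 i (Finset.mem_insert_of_mem hi)
    have hP1 : ∏ i ∈ S, a i ≤ 1 :=
      Finset.prod_le_one (fun i hi ↦ ha0 i (Finset.mem_insert_of_mem hi))
        (fun i hi ↦ ha1 i (Finset.mem_insert_of_mem hi))
    have hbj0 := hb0 j (Finset.mem_insert_self j S)
    have hbj1 := hb1 j (Finset.mem_insert_self j S)
    have e : a j * ∏ i ∈ S, a i - b j * ∏ i ∈ S, b i =
        (a j - b j) * ∏ i ∈ S, a i + b j * (∏ i ∈ S, a i - ∏ i ∈ S, b i) := by ring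
    rw [e]
    refine (abs_add_le _ _).trans ?_
    rw [abs_mul, abs_mul, abs_of_nonneg hP0, abs_of_nonneg hbj0]
    have t1 : |a j - b j| * ∏ i ∈ S, a i ≤ |a j - b j| * 1 :=
      mul_le_mul_of_nonneg_left hP1 (abs_nonneg _)
    have t2 : b j * |∏ i ∈ S, a i - ∏ i ∈ S, b i| ≤ 1 * |∏ i ∈ S, a i - ∏ i ∈ S, b i| :=
      mul_le_mul_of_nonneg_right hbj1 (abs_nonneg _)
    linarith

end tent

section psi

variable (K)

theorem psi_nonneg (y : logSpace K) : 0 ≤ psi K y :=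
  Finset.prod_nonneg fun _ _ ↦ tent_nonneg _

theorem psi_le_one (y : logSpace K) : psi K y ≤ 1 :=
  Finset.prod_le_one (fun _ _ ↦ tent_nonneg _) (fun _ _ ↦ tent_le_one _)

open scoped Classical in
theorem exists_lipschitz_psi :
    ∃ L : ℝ, 0 ≤ L ∧ ∀ y y' : logSpace K, |psi K y - psi K y'| ≤ L * ‖y - y'‖ := by
  refine ⟨∑ i, ‖LinearMap.toContinuousLinearMap ((logBasis K).coord i)‖,
    Finset.sum_nonneg fun _ _ ↦ norm_nonneg _, fun y y' ↦ ?_⟩
  unfold psi
  refine (abs_prod_sub_prod_le_sum _ _ _ (fun _ _ ↦ tent_nonneg _) (fun _ _ ↦ tent_le_one _)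
    (fun _ _ ↦ tent_nonneg _) (fun _ _ ↦ tent_le_one _)).trans ?_
  rw [Finset.sum_mul]
  refine Finset.sum_le_sum fun i _ ↦ ?_
  refine (abs_tent_sub_le _ _).trans ?_
  have h := (LinearMap.toContinuousLinearMap ((logBasis K).coord i)).le_opNorm (y - y')
  rw [Real.norm_eq_abs] at h
  simpa using h

open scoped Classical in
theorem exists_norm_le_of_psi_ne_zero :
    ∃ B : ℝ, 0 ≤ B ∧ ∀ y : logSpace K, psi K y ≠ 0 → ‖y‖ ≤ B := by
  refine ⟨∑ i, ‖logBasis K i‖, Finset.sum_nonneg fun _ _ ↦ norm_nonneg _, fun y hy ↦ ?_⟩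
  have hi : ∀ i, |(logBasis K).repr y i| < 1 := by
    intro i
    apply abs_lt_one_of_tent_ne_zero
    intro h0
    apply hy
    unfold psi
    exact Finset.prod_eq_zero (Finset.mem_univ i) h0
  conv_lhs => rw [← (logBasis K).sum_repr y]
  refine (norm_sum_le _ _).trans (Finset.sum_le_sum fun i _ ↦ ?_)
  rw [_root_.norm_smul, Real.norm_eq_abs]
  exact mul_le_of_le_one_left (norm_nonneg _) (hi i).le

theorem cutW_eq_genW : cutW K = genW (psi K) := rfl

theorem cutF_eq_genF (s : ℝ) : cutF K s = genF (psi K) s := rfl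

open scoped Classical in
/-- **Q2**: Lipschitz estimate with decay for `cutF`, uniformly in `s ∈ [1, 2]`. -/
theorem exists_lipschitz_cutF :
    ∃ C : ℝ, 0 ≤ C ∧ ∀ s : ℝ, 1 ≤ s → s ≤ 2 → ∀ T : ℝ, 1 ≤ T → ∀ x y : mixedSpace K,
      T ≤ ‖x‖ → T ≤ ‖y‖ →
      |cutF K s x - cutF K s y| ≤ C * ‖x - y‖ * T ^ (-(Module.finrank ℚ K : ℝ) - 1) := by
  obtain ⟨L, hL0, hL⟩ := exists_lipschitz_psi K
  obtain ⟨B, hB0, hB⟩ := exists_norm_le_of_psi_ne_zero K
  simp_rw [cutF_eq_genF]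
  exact exists_lipschitz_genF (psi_le_one K) (psi_nonneg K) hL0 hL hB0 hB

theorem cutW_nonneg (x : mixedSpace K) : 0 ≤ cutW K x := by
  unfold cutW
  split_ifs
  · exact le_rfl
  · exact psi_nonneg K _

theorem cutW_le_one (x : mixedSpace K) : cutW K x ≤ 1 := by
  unfold cutW
  split_ifs
  · exact zero_le_one
  · exact psi_le_one K _

theorem cutF_zero (s : ℝ) : cutF K s 0 = 0 := by
  simp [cutF, cutW]

theorem cutF_nonneg (s : ℝ) (x : mixedSpace K) : 0 ≤ cutF K s x :=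
  mul_nonneg (cutW_nonneg K x) (Real.rpow_nonneg (mixedEmbedding.norm_nonneg x) _)

/-- On the image of `𝓞 K` the function `cutF` is at most `1`. -/
theorem cutF_mixedEmbedding_le_one {s : ℝ} (hs : 0 ≤ s) (α : 𝓞 K) :
    cutF K s (mixedEmbedding K (α : K)) ≤ 1 := by
  rcases eq_or_ne α 0 with rfl | hα
  · simp [cutF_zero]
  · have hN : (1 : ℝ) ≤ mixedEmbedding.norm (mixedEmbedding K (α : K)) := by
      rw [mixedEmbedding.norm_eq_norm]
      have h1 : (Algebra.norm ℚ (α : K)) = ((Algebra.norm ℤ α : ℤ) : ℚ) :=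
        (Algebra.coe_norm_int α).symm
      rw [h1]
      have h2 : Algebra.norm ℤ α ≠ 0 := by
        rw [Ne, Algebra.norm_eq_zero_iff]; exact hα
      have h3 : (1 : ℤ) ≤ |Algebra.norm ℤ α| := Int.one_le_abs h2
      have h4 : ((1 : ℤ) : ℝ) ≤ ((|Algebra.norm ℤ α| : ℤ) : ℝ) := by exact_mod_cast h3
      simpa using h4
    calc cutF K s (mixedEmbedding K (α : K))
        ≤ 1 * mixedEmbedding.norm (mixedEmbedding K (α : K)) ^ (-s) :=
          mul_le_mul_of_nonneg_right (cutW_le_one K _) (Real.rpow_nonneg (by linarith) _)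
      _ ≤ 1 * 1 := by
          refine mul_le_mul_of_nonneg_left ?_ zero_le_one
          exact Real.rpow_le_one_of_one_le_of_nonpos hN (by linarith)
      _ = 1 := one_mul _

end psi

end Fermat.Agent.S14.H32
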