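import Fermat.Agent.S14.H32.ClassChar

/-!
# S14 / package D4 (helper32): the density assembly

`exists_prime_of_bounds`: in a number field `F`, given
* boundedness of the nontrivial class `L`-series on `(1, 2]` (package D1),
* the Kummer-splitting bound for the primes modulo which `η` is a `p`-th power (package D3),
* negligibility of the primes of residue degree `≥ 2` (package D2/EP5),

for every nontrivial `lam : ClassGroup (𝓞 F) →* Multiplicative (ZMod p)` (`p ≥ 3`) there is a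
prime `v` of degree one, outside any given finite set, not dividing `p η`, with `lam [v] ≠ 1` and
`η` not a `p`-th power modulo `v`.
-/

namespace Fermat.Agent.S14.H32

open NumberField Ideal Filter Topology nonZeroDivisors IsDedekindDomain

/-- Abstract pigeonhole for Dirichlet masses: if the total mass is `≥ log (1/(s-1)) - C` while
four classes have masses `O(1)`, `O(1)`, `≤ c₂ log + O(1)`, `≤ c₃ log + O(1)` with `c₂ + c₃ < 1`,
then some index lies in none of the classes. -/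
theorem exists_good_of_bounds {ι : Type*} (x : ℝ → ι → ℝ) (hx0 : ∀ s v, 0 ≤ x s v)
    (P₀ P₁ P₂ P₃ : ι → Prop) (c₂ c₃ : ℝ) (hc : c₂ + c₃ < 1)
    (hlow : ∃ C δ : ℝ, 0 < δ ∧ ∀ s, 1 < s → s < 1 + δ →
      ∃ S : Finset ι, Real.log (1 / (s - 1)) - C ≤ ∑ v ∈ S, x s v)
    (h₀ : ∃ C : ℝ, ∀ s, 1 < s → s ≤ 2 → ∀ S : Finset ι, (∀ v ∈ S, P₀ v) → ∑ v ∈ S, x s v ≤ C)
    (h₁ : ∃ C : ℝ, ∀ s, 1 < s → s ≤ 2 → ∀ S : Finset ι, (∀ v ∈ S, P₁ v) → ∑ v ∈ S, x s v ≤ C)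
    (h₂ : ∃ C : ℝ, ∀ s, 1 < s → s ≤ 2 → ∀ S : Finset ι, (∀ v ∈ S, P₂ v) →
      ∑ v ∈ S, x s v ≤ c₂ * Real.log (1 / (s - 1)) + C)
    (h₃ : ∃ C : ℝ, ∀ s, 1 < s → s ≤ 2 → ∀ S : Finset ι, (∀ v ∈ S, P₃ v) →
      ∑ v ∈ S, x s v ≤ c₃ * Real.log (1 / (s - 1)) + C) :
    ∃ v, ¬ P₀ v ∧ ¬ P₁ v ∧ ¬ P₂ v ∧ ¬ P₃ v := by
  classical
  by_contra hcon
  have hcov : ∀ v, P₀ v ∨ P₁ v ∨ P₂ v ∨ P₃ v := by
    intro v
    by_contra h
    simp only [not_or] at h
    exact hcon ⟨v, h.1, h.2.1, h.2.2.1, h.2.2.2⟩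
  obtain ⟨Cl, δ, hδ, hlow⟩ := hlow
  obtain ⟨C₀, h₀⟩ := h₀
  obtain ⟨C₁, h₁⟩ := h₁
  obtain ⟨C₂, h₂⟩ := h₂
  obtain ⟨C₃, h₃⟩ := h₃
  have hd : 0 < 1 - c₂ - c₃ := by linarith
  set Kt := C₀ + C₁ + C₂ + C₃ + Cl with hKt
  set M := max (Kt / (1 - c₂ - c₃) + 1) (max (-Real.log δ + 1) 1) with hM
  have hM1 : Kt / (1 - c₂ - c₃) + 1 ≤ M := le_max_left _ _
  have hM2 : -Real.log δ + 1 ≤ M := (le_max_left _ _).trans (le_max_right _ _)
  have hM3 : 1 ≤ M := (le_max_right _ _).trans (le_max_right _ _)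
  set s := 1 + Real.exp (-M) with hs
  have he : 0 < Real.exp (-M) := Real.exp_pos _
  have hs1 : 1 < s := by linarith
  have hs2 : s ≤ 2 := by
    have : Real.exp (-M) ≤ 1 := Real.exp_le_one_iff.mpr (by linarith)
    linarith
  have hsδ : s < 1 + δ := by
    have : Real.exp (-M) < δ := by
      rw [← Real.exp_log hδ]
      exact Real.exp_lt_exp.mpr (by linarith)
    linarith
  have hlog : Real.log (1 / (s - 1)) = M := by
    have : s - 1 = Real.exp (-M) := by rw [hs]; ring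
    rw [this, one_div, ← Real.exp_neg, neg_neg, Real.log_exp]
  obtain ⟨S, hS⟩ := hlow s hs1 hsδ
  have hsplit : ∑ v ∈ S, x s v ≤ ∑ v ∈ S.filter P₀, x s v + ∑ v ∈ S.filter P₁, x s v +
      ∑ v ∈ S.filter P₂, x s v + ∑ v ∈ S.filter P₃, x s v := by
    simp_rw [Finset.sum_filter, ← Finset.sum_add_distrib]
    refine Finset.sum_le_sum fun v _ ↦ ?_
    have hx := hx0 s v
    rcases hcov v with h | h | h | h
    · rw [if_pos h]
      have h1 : 0 ≤ (if P₁ v then x s v else 0) := by split_ifs <;> simp [hx]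
      have h2 : 0 ≤ (if P₂ v then x s v else 0) := by split_ifs <;> simp [hx]
      have h3 : 0 ≤ (if P₃ v then x s v else 0) := by split_ifs <;> simp [hx]
      linarith
    · rw [if_pos h]
      have h1 : 0 ≤ (if P₀ v then x s v else 0) := by split_ifs <;> simp [hx]
      have h2 : 0 ≤ (if P₂ v then x s v else 0) := by split_ifs <;> simp [hx]
      have h3 : 0 ≤ (if P₃ v then x s v else 0) := by split_ifs <;> simp [hx]
      linarith
    · rw [if_pos h]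
      have h1 : 0 ≤ (if P₀ v then x s v else 0) := by split_ifs <;> simp [hx]
      have h2 : 0 ≤ (if P₁ v then x s v else 0) := by split_ifs <;> simp [hx]
      have h3 : 0 ≤ (if P₃ v then x s v else 0) := by split_ifs <;> simp [hx]
      linarith
    · rw [if_pos h]
      have h1 : 0 ≤ (if P₀ v then x s v else 0) := by split_ifs <;> simp [hx]
      have h2 : 0 ≤ (if P₁ v then x s v else 0) := by split_ifs <;> simp [hx]
      have h3 : 0 ≤ (if P₂ v then x s v else 0) := by split_ifs <;> simp [hx]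
      linarith
  have b₀ := h₀ s hs1 hs2 (S.filter P₀) (fun v hv ↦ (Finset.mem_filter.mp hv).2)
  have b₁ := h₁ s hs1 hs2 (S.filter P₁) (fun v hv ↦ (Finset.mem_filter.mp hv).2)
  have b₂ := h₂ s hs1 hs2 (S.filter P₂) (fun v hv ↦ (Finset.mem_filter.mp hv).2)
  have b₃ := h₃ s hs1 hs2 (S.filter P₃) (fun v hv ↦ (Finset.mem_filter.mp hv).2)
  rw [hlog] at hS b₂ b₃
  have hfin : (1 - c₂ - c₃) * M ≤ Kt := by
    rw [hKt]; nlinarith
  have : M ≤ Kt / (1 - c₂ - c₃) := by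
    rw [le_div_iff₀ hd]; linarith
  linarith

variable (F : Type*) [Field F] [NumberField F] (p : ℕ) [Fact p.Prime]

/-- **Density assembly** (package D4), with the three analytic inputs as hypotheses. -/
theorem exists_prime_of_bounds (hp : 3 ≤ p) (η : 𝓞 F) (hη0 : η ≠ 0)
    (lam : ClassGroup (𝓞 F) →* Multiplicative (ZMod p)) (hlam : lam ≠ 1)
    (T : Finset (Ideal (𝓞 F)))
    (hL : ∀ χ : ClassGroup (𝓞 F) →* ℂˣ, χ ≠ 1 → ∃ C : ℝ, ∀ s : ℝ, 1 < s → s ≤ 2 →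
      ‖∑' I : (Ideal (𝓞 F))⁰, (χ (ClassGroup.mk0 I) : ℂ) * ((nrm F s I : ℝ) : ℂ)‖ ≤ C)
    (hK : ∃ C : ℝ, ∀ s : ℝ, 1 < s → s ≤ 2 → ∀ S : Finset (HeightOneSpectrum (𝓞 F)),
      (∀ v ∈ S, (p : 𝓞 F) ∉ v.asIdeal ∧ η ∉ v.asIdeal ∧ ∃ y : 𝓞 F, η - y ^ p ∈ v.asIdeal) →
      ∑ v ∈ S, nrm F s (prm v) ≤ (1 / p) * Real.log (1 / (s - 1)) + C)
    (hD : ∃ C : ℝ, ∀ s : ℝ, 1 < s → ∀ S : Finset (HeightOneSpectrum (𝓞 F)),
      (∀ v ∈ S, ¬ (absNorm v.asIdeal).Prime) → ∑ v ∈ S, nrm F s (prm v) ≤ C) :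
    ∃ v : HeightOneSpectrum (𝓞 F), v.asIdeal ∉ T ∧ (absNorm v.asIdeal).Prime ∧
      (p : 𝓞 F) ∉ v.asIdeal ∧ η ∉ v.asIdeal ∧ lam (ClassGroup.mk0 (prm v)) ≠ 1 ∧
      ∀ y : 𝓞 F, η - y ^ p ∉ v.asIdeal := by
  classical
  have hp0 : (0 : ℝ) < p := Nat.cast_pos.mpr (Fact.out : p.Prime).pos
  have hpF : (p : 𝓞 F) ≠ 0 := Nat.cast_ne_zero.mpr (Fact.out : p.Prime).ne_zero
  -- the finite exceptional set
  have hfin1 : {v : HeightOneSpectrum (𝓞 F) | v.asIdeal ∈ T}.Finite := by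
    refine Set.Finite.of_finite_image (f := fun v : HeightOneSpectrum (𝓞 F) ↦ v.asIdeal) ?_ ?_
    · exact T.finite_toSet.subset (by rintro _ ⟨v, hv, rfl⟩; exact hv)
    · intro v _ w _ h; exact HeightOneSpectrum.ext h
  have hfin2 : {v : HeightOneSpectrum (𝓞 F) | (p : 𝓞 F) * η ∈ v.asIdeal}.Finite := by
    have hne : Ideal.span {(p : 𝓞 F) * η} ≠ 0 := by
      rw [Ne, Ideal.zero_eq_bot, Ideal.span_singleton_eq_bot]
      exact mul_ne_zero hpF hη0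
    refine (Ideal.finite_factors hne).subset fun v hv ↦ ?_
    exact Ideal.dvd_span_singleton.mpr hv
  set E : Finset (HeightOneSpectrum (𝓞 F)) := hfin1.toFinset ∪ hfin2.toFinset with hE
  have key := exists_good_of_bounds (fun s v ↦ nrm F s (prm v)) (fun s v ↦ nrm_nonneg s _)
    (fun v ↦ v.asIdeal ∈ T ∨ (p : 𝓞 F) ∈ v.asIdeal ∨ η ∈ v.asIdeal)
    (fun v ↦ ¬ (absNorm v.asIdeal).Prime)
    (fun v ↦ lam (ClassGroup.mk0 (prm v)) = 1)
    (fun v ↦ (p : 𝓞 F) ∉ v.asIdeal ∧ η ∉ v.asIdeal ∧ ∃ y : 𝓞 F, η - y ^ p ∈ v.asIdeal)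
    (1 / p) (1 / p) ?_ (exists_sum_prm_ge' F) ?_ ?_ (exists_sum_prm_ker_le F p lam hlam hL) hK
  · obtain ⟨v, h0, h1, h2, h3⟩ := key
    simp only [not_or] at h0
    refine ⟨v, h0.1, not_not.mp h1, h0.2.1, h0.2.2, h2, fun y hy ↦ ?_⟩
    exact h3 ⟨h0.2.1, h0.2.2, y, hy⟩
  · have h3 : (3 : ℝ) ≤ p := by exact_mod_cast hp
    rw [← add_div, div_lt_one hp0]
    linarith
  · refine ⟨E.card, fun s hs _ S hS ↦ ?_⟩
    have hSE : S ⊆ E := by
      intro v hv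
      rw [hE, Finset.mem_union, Set.Finite.mem_toFinset, Set.Finite.mem_toFinset]
      rcases hS v hv with h | h | h
      · exact Or.inl h
      · exact Or.inr (v.asIdeal.mul_mem_right _ h)
      · exact Or.inr (v.asIdeal.mul_mem_left _ h)
    calc ∑ v ∈ S, nrm F s (prm v) ≤ ∑ _v ∈ S, (1 : ℝ) :=
          Finset.sum_le_sum fun v _ ↦ nrm_le_one (by linarith) _
      _ = S.card := by simp
      _ ≤ E.card := by exact_mod_cast Finset.card_le_card hSE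
  · obtain ⟨C, hC⟩ := hD
    exact ⟨C, fun s hs _ S hS ↦ hC s hs S hS⟩

end Fermat.Agent.S14.H32
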