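import Fermat.Agent.S14.H32.IdealSeries
import Fermat.Agent.S14.H32.EulerFinite

/-!
# S14 / package D (helper32): sums over prime ideals vs `log ζ_K(s)`

Finite-set forms:
* `sum_prm_le_log_zetaR`: `∑_{v ∈ S} N v^{-s} ≤ log ζ_K(s)`;
* `exists_sum_prm_ge`: some finite `S` has `log ζ_K(s) - log 2 - ζ_K(2) ≤ ∑_{v ∈ S} N v^{-s}`;
* `exists_sum_prm_le`, `exists_sum_prm_ge'`: the same compared to `log (1 / (s - 1))`.
-/

namespace Fermat.Agent.S14.H32

open NumberField Ideal Filter Topology nonZeroDivisors IsDedekindDomain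

variable (K : Type*) [Field K] [NumberField K]

/-- `I ↦ N(I)^{-s}` as a monoid hom. -/
noncomputable def nrmHom (s : ℝ) : (Ideal (𝓞 K))⁰ →* ℝ where
  toFun := nrm K s
  map_one' := nrm_one s
  map_mul' := nrm_mul s

@[simp] theorem nrmHom_apply (s : ℝ) (I : (Ideal (𝓞 K))⁰) : nrmHom K s I = nrm K s I := rfl

variable {K}

theorem two_le_absNorm (v : HeightOneSpectrum (𝓞 K)) : 2 ≤ absNorm v.asIdeal := by
  have h0 : absNorm v.asIdeal ≠ 0 := by
    rw [Ne, Ideal.absNorm_eq_zero_iff]; exact v.ne_bot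
  have h1 : absNorm v.asIdeal ≠ 1 := by
    rw [Ne, Ideal.absNorm_eq_one_iff]; exact v.isPrime.ne_top
  omega

theorem nrm_prm_le_half {s : ℝ} (hs : 1 ≤ s) (v : HeightOneSpectrum (𝓞 K)) :
    nrm K s (prm v) ≤ 1 / 2 := by
  have h2 : (2 : ℝ) ≤ (absNorm v.asIdeal : ℝ) := by exact_mod_cast two_le_absNorm v
  calc nrm K s (prm v) = (absNorm v.asIdeal : ℝ) ^ (-s) := rfl
    _ ≤ (2 : ℝ) ^ (-s) := Real.rpow_le_rpow_of_nonpos (by norm_num) h2 (by linarith)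
    _ ≤ (2 : ℝ) ^ (-1 : ℝ) := Real.rpow_le_rpow_of_exponent_le (by norm_num) (by linarith)
    _ = 1 / 2 := by rw [Real.rpow_neg_one]; norm_num

theorem nrm_prm_lt_one {s : ℝ} (hs : 1 ≤ s) (v : HeightOneSpectrum (𝓞 K)) :
    nrm K s (prm v) < 1 := lt_of_le_of_lt (nrm_prm_le_half hs v) (by norm_num)

theorem exp_le_inv_one_sub {x : ℝ} (hx : x < 1) : Real.exp x ≤ (1 - x)⁻¹ := by
  have h := Real.add_one_le_exp (-x)
  have h1 : 0 < 1 - x := by linarith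
  rw [le_inv_comm₀ (Real.exp_pos x) h1, ← Real.exp_neg]
  linarith

theorem inv_one_sub_le_exp {x : ℝ} (h0 : 0 ≤ x) (h1 : x ≤ 1 / 2) :
    (1 - x)⁻¹ ≤ Real.exp (x + x ^ 2) := by
  have h2 : 0 ≤ x + x ^ 2 := by positivity
  have h3 := Real.quadratic_le_exp_of_nonneg h2
  have h4 : (0 : ℝ) < 1 - x := by linarith
  rw [inv_le_iff_one_le_mul₀' h4]
  have h5 : 1 ≤ (1 - x) * (1 + (x + x ^ 2) + (x + x ^ 2) ^ 2 / 2) := by
    have : (1 - x) * (1 + (x + x ^ 2) + (x + x ^ 2) ^ 2 / 2) =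
        1 + x ^ 2 / 2 * (1 - x - x ^ 2 - x ^ 3) := by ring
    rw [this]
    have h6 : 0 ≤ 1 - x - x ^ 2 - x ^ 3 := by
      nlinarith [mul_nonneg h0 h0, mul_nonneg (mul_nonneg h0 h0) h0,
        mul_nonneg h0 (sub_nonneg.mpr h1), mul_nonneg (mul_nonneg h0 h0) (sub_nonneg.mpr h1)]
    nlinarith [mul_nonneg (mul_nonneg h0 h0) h6]
  calc 1 ≤ (1 - x) * (1 + (x + x ^ 2) + (x + x ^ 2) ^ 2 / 2) := h5
    _ ≤ (1 - x) * Real.exp (x + x ^ 2) := by gcongr

variable (K)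

/-- Finite Euler products are bounded by the zeta value. -/
theorem prod_inv_one_sub_le_zetaR {s : ℝ} (hs : 1 < s) (S : Finset (HeightOneSpectrum (𝓞 K))) :
    ∏ v ∈ S, (1 - nrm K s (prm v))⁻¹ ≤ zetaR K s := by
  have hlim : Tendsto (fun n ↦ ∏ v ∈ S, ∑ k ∈ Finset.range n, nrm K s (prm v) ^ k) atTop
      (𝓝 (∏ v ∈ S, (1 - nrm K s (prm v))⁻¹)) :=
    tendsto_finsetProd _ fun v _ ↦ (hasSum_geometric_of_lt_one (nrm_nonneg s _)
      (nrm_prm_lt_one hs.le v)).tendsto_sum_nat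
  refine le_of_tendsto' hlim fun n ↦ ?_
  have := prod_sum_pow_eq (nrmHom K s) S n
  simp only [nrmHom_apply] at this
  rw [this]
  exact sum_nrm_le_zetaR K hs _

theorem zetaR_pos {s : ℝ} (hs : 1 < s) : 0 < zetaR K s :=
  lt_of_lt_of_le one_pos (one_le_zetaR K hs)

/-- `∑_{v ∈ S} N v^{-s} ≤ log ζ_K(s)` for every finite set of primes. -/
theorem sum_prm_le_log_zetaR {s : ℝ} (hs : 1 < s) (S : Finset (HeightOneSpectrum (𝓞 K))) :
    ∑ v ∈ S, nrm K s (prm v) ≤ Real.log (zetaR K s) := by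
  rw [Real.le_log_iff_exp_le (zetaR_pos K hs), Real.exp_sum]
  refine le_trans ?_ (prod_inv_one_sub_le_zetaR K hs S)
  exact Finset.prod_le_prod (fun v _ ↦ (Real.exp_pos _).le)
    (fun v _ ↦ exp_le_inv_one_sub (nrm_prm_lt_one hs.le v))

theorem sum_nrm_prm_le_zetaR {s : ℝ} (hs : 1 < s) (S : Finset (HeightOneSpectrum (𝓞 K))) :
    ∑ v ∈ S, nrm K s (prm v) ≤ zetaR K s := by
  classical
  have := sum_nrm_le_zetaR K hs (S.image prm)
  rwa [Finset.sum_image (fun x _ y _ h ↦ prm_injective h)] at this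

/-- Some finite set of primes carries almost all of `log ζ_K(s)`. -/
theorem exists_sum_prm_ge {s : ℝ} (hs : 1 < s) :
    ∃ S : Finset (HeightOneSpectrum (𝓞 K)),
      Real.log (zetaR K s) - Real.log 2 - zetaR K 2 ≤ ∑ v ∈ S, nrm K s (prm v) := by
  have hsum : Summable fun I ↦ ‖nrmHom K s I‖ := by
    simpa [Real.norm_of_nonneg (nrm_nonneg s _)] using summable_nrm K hs
  have hlt : ∀ v : HeightOneSpectrum (𝓞 K), ‖nrmHom K s (prm v)‖ < 1 := by
    intro v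
    simpa [Real.norm_of_nonneg (nrm_nonneg s _)] using nrm_prm_lt_one hs.le v
  have ht := tendsto_euler (nrmHom K s) hsum hlt
  have hz := zetaR_pos K hs
  have hev : ∀ᶠ S : Finset (HeightOneSpectrum (𝓞 K)) in atTop,
      zetaR K s / 2 < ∏ v ∈ S, (1 - nrmHom K s (prm v))⁻¹ :=
    ht.eventually (lt_mem_nhds (by
      show zetaR K s / 2 < ∑' I, nrmHom K s I
      have : (∑' I, nrmHom K s I) = zetaR K s := rfl
      rw [this]; linarith))
  obtain ⟨S, hS⟩ := hev.exists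
  refine ⟨S, ?_⟩
  simp only [nrmHom_apply] at hS
  have h1 : ∏ v ∈ S, (1 - nrm K s (prm v))⁻¹ ≤
      Real.exp (∑ v ∈ S, nrm K s (prm v) + ∑ v ∈ S, nrm K s (prm v) ^ 2) := by
    rw [← Finset.sum_add_distrib, Real.exp_sum]
    refine Finset.prod_le_prod (fun v _ ↦ ?_)
      (fun v _ ↦ inv_one_sub_le_exp (nrm_nonneg s _) (nrm_prm_le_half hs.le v))
    have := nrm_prm_lt_one hs.le v
    exact (inv_pos.mpr (by linarith)).le
  have h2 : ∑ v ∈ S, nrm K s (prm v) ^ 2 ≤ zetaR K 2 := by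
    have h2s : (1 : ℝ) < 2 * s := by linarith
    have : ∀ v ∈ S, nrm K s (prm v) ^ 2 = nrm K (2 * s) (prm v) := by
      intro v _
      simp only [nrm]
      rw [← Real.rpow_natCast, ← Real.rpow_mul (Nat.cast_nonneg _)]
      congr 1; push_cast; ring
    rw [Finset.sum_congr rfl this]
    exact (sum_nrm_prm_le_zetaR K h2s S).trans (zetaR_anti K (by norm_num) (by linarith))
  have h3 : Real.log (zetaR K s / 2) <
      ∑ v ∈ S, nrm K s (prm v) + ∑ v ∈ S, nrm K s (prm v) ^ 2 := by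
    rw [Real.log_lt_iff_lt_exp (by positivity)]
    exact lt_of_lt_of_le hS h1
  rw [Real.log_div hz.ne' (by norm_num)] at h3
  linarith

/-- `∑_{v ∈ S} N v^{-s} ≤ log (1 / (s - 1)) + C` on `(1, 2]`, uniformly in `S`. -/
theorem exists_sum_prm_le :
    ∃ C : ℝ, ∀ s : ℝ, 1 < s → s ≤ 2 → ∀ S : Finset (HeightOneSpectrum (𝓞 K)),
      ∑ v ∈ S, nrm K s (prm v) ≤ Real.log (1 / (s - 1)) + C := by
  obtain ⟨C, hC, h⟩ := exists_zetaR_le K
  refine ⟨Real.log C, fun s hs hs2 S ↦ ?_⟩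
  have hs1 : 0 < s - 1 := by linarith
  calc ∑ v ∈ S, nrm K s (prm v) ≤ Real.log (zetaR K s) := sum_prm_le_log_zetaR K hs S
    _ ≤ Real.log (C / (s - 1)) := Real.log_le_log (zetaR_pos K hs) (h s hs hs2)
    _ = Real.log (1 / (s - 1)) + Real.log C := by
      rw [div_eq_mul_one_div, Real.log_mul hC.ne' (by positivity)]; ring

/-- Near `1` some finite set of primes has `∑_{v ∈ S} N v^{-s} ≥ log (1 / (s - 1)) - C`. -/
theorem exists_sum_prm_ge' :
    ∃ C : ℝ, ∃ δ : ℝ, 0 < δ ∧ ∀ s : ℝ, 1 < s → s < 1 + δ →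
      ∃ S : Finset (HeightOneSpectrum (𝓞 K)),
        Real.log (1 / (s - 1)) - C ≤ ∑ v ∈ S, nrm K s (prm v) := by
  obtain ⟨c, hc, δ, hδ, h⟩ := exists_zetaR_ge K
  refine ⟨Real.log 2 + zetaR K 2 - Real.log c, δ, hδ, fun s hs hsδ ↦ ?_⟩
  obtain ⟨S, hS⟩ := exists_sum_prm_ge K hs
  refine ⟨S, le_trans ?_ hS⟩
  have hs1 : 0 < s - 1 := by linarith
  have h1 : Real.log (c / (s - 1)) ≤ Real.log (zetaR K s) :=
    Real.log_le_log (by positivity) (h s hs hsδ)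
  rw [div_eq_mul_one_div, Real.log_mul hc.ne' (by positivity)] at h1
  linarith

end Fermat.Agent.S14.H32
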